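/-
S58 (conductor-level matching): shared definitions.

`W` is an integral Weierstrass curve, `EQ W` the curve over `ℚ`, `Pts W` its `ℚ̄`-points (with the
Prelude Galois action `σ • P`).  `QuadRel W m σ t d` says `σ² - t σ + d = 0` on `E[m]`.
-/
import Mathlib
import Fermat.Prelude.Def_WeierstrassCurve_ConductorLevel
import Fermat.Prelude.Def_FLTPrelim_ModularRep
import Fermat.Prelude.Def_EllipticCurve_FrobeniusTrace
import Fermat.Agent.S31.Cyclo

set_option autoImplicit false

namespace Fermat.Agent.S58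

open WeierstrassCurve WeierstrassCurve.Affine
open Fermat.Agent.S31 (Qb GQ)

/-- the curve over `ℚ` -/
abbrev EQ (W : WeierstrassCurve ℤ) : WeierstrassCurve ℚ := W.map (Int.castRingHom ℚ)

/-- the `ℚ̄`-points -/
abbrev Pts (W : WeierstrassCurve ℤ) : Type := ((EQ W)⁄Qb).Point

/-- `σ² - t σ + d = 0` on `E[m]`. -/
def QuadRel (W : WeierstrassCurve ℤ) (m : ℕ) (σ : GQ) (t d : ℤ) : Prop :=
  ∀ P : Pts W, m • P = 0 → σ • σ • P - t • σ • P + d • P = 0

end Fermat.Agent.S58
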