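/-
S58, task Count: the trivial bound `|a_q(W)| ≤ q`, i.e. `1 ≤ #W(𝔽_q) ≤ 2q + 1`.

MATH.  `W.apOfModel q = (Nat.card (ZMod q) : ℤ) + 1 - Nat.card (W.reductionMod q).toAffine.Point` (unfold `apOfModel`, `traceOfFrobenius`, `card`), `Nat.card (ZMod q) = q` (`Nat.card_zmod`).
The set of points is finite (`WeierstrassCurve.Affine.Point.instFinite`, Prelude) and contains `0`: `1 ≤ card` (`Nat.card_pos`/`Finite.card_pos`).
Upper bound: for every `x` there are at most two `y` with `y² + (a₁x + a₃) y - (x³ + a₂x² + a₄x + a₆) = 0` (roots of a monic quadratic polynomial over the field `ZMod q`: `Polynomial.card_roots'`, or: if `y₁ ≠ y₂` are roots then any root `y` satisfies `(y - y₁)(y - y₂) = 0`).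
E.g. inject `Point` into `Option (Σ x : ZMod q, {y // y ∈ (quadratic x).roots.toFinset})`, or bound the `Finset` `univ.sigma (fun x => roots.toFinset)` by `∑ x, 2 = 2q`.
-/
import Mathlib
import Fermat.Prelude.Def_FLTPrelim_Modularity

set_option autoImplicit false

namespace Fermat.Agent.S58

/-- the number of points of a Weierstrass curve over a finite field is at most `2 q + 1`. -/
theorem Count_card_point_le {F : Type*} [Field F] [Finite F] (W : WeierstrassCurve F) :
    Nat.card W.toAffine.Point ≤ 2 * Nat.card F + 1 := by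
  classical
  have := Fintype.ofFinite F
  let s : Finset (F × F) := Finset.univ.filter (fun xy : F × F => W.toAffine.Equation xy.1 xy.2)
  -- the points inject into `Option s`
  let g : W.toAffine.Point → Option ↥s
    | .zero => none
    | .some x y h => Option.some ⟨(x, y), by
        simp only [s, Finset.mem_filter, Finset.mem_univ, true_and]
        exact h.1⟩
  have hg : Function.Injective g := by
    rintro (_ | ⟨x₁, y₁, h₁⟩) (_ | ⟨x₂, y₂, h₂⟩) h <;>
      simp only [g, Option.some.injEq, Subtype.mk.injEq, Prod.mk.injEq, reduceCtorEq] at h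
    · rfl
    · obtain ⟨rfl, rfl⟩ := h; rfl
  have h1 : Nat.card W.toAffine.Point ≤ s.card + 1 := by
    have := Nat.card_le_card_of_injective g hg
    rwa [Finite.card_option, Nat.card_eq_fintype_card (α := ↥s), Fintype.card_coe] at this
  -- the fibres of the first projection have at most two elements
  have hfib : ∀ a ∈ s.image Prod.fst, (s.filter fun xy => xy.1 = a).card ≤ 2 := by
    intro a _
    by_contra hcon
    push Not at hcon
    obtain ⟨⟨ux, uy⟩, ⟨vx, vy⟩, ⟨wx, wy⟩, hu, hv, hw, huv, huw, hvw⟩ :=
      Finset.two_lt_card_iff.1 hcon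
    simp only [s, Finset.mem_filter, Finset.mem_univ, true_and,
      WeierstrassCurve.Affine.equation_iff] at hu hv hw
    obtain ⟨eu, hux⟩ := hu
    obtain ⟨ev, hvx⟩ := hv
    obtain ⟨ew, hwx⟩ := hw
    subst hux
    subst hvx
    subst hwx
    have nuv : uy - vy ≠ 0 := fun h => huv (by rw [sub_eq_zero.1 h])
    have nuw : uy - wy ≠ 0 := fun h => huw (by rw [sub_eq_zero.1 h])
    have e1 : (uy - vy) * (uy + vy + W.a₁ * wx + W.a₃) = 0 := by
      linear_combination eu - ev
    have e2 : (uy - wy) * (uy + wy + W.a₁ * wx + W.a₃) = 0 := by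
      linear_combination eu - ew
    have f1 := (mul_eq_zero.1 e1).resolve_left nuv
    have f2 := (mul_eq_zero.1 e2).resolve_left nuw
    apply hvw
    have : vy = wy := by linear_combination f1 - f2
    rw [this]
  have h2 : s.card ≤ 2 * Nat.card F := by
    refine (Finset.card_le_mul_card_image s 2 hfib).trans ?_
    rw [Nat.card_eq_fintype_card]
    exact Nat.mul_le_mul_left 2 (Finset.card_le_univ _)
  omega

theorem apOfModel_bound (W : WeierstrassCurve ℤ) {q : ℕ} (hq : q.Prime) :
    -(q : ℤ) ≤ W.apOfModel q ∧ W.apOfModel q ≤ q := by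
  have : Fact q.Prime := ⟨hq⟩
  have h1 := Count_card_point_le (W.reductionMod q)
  have h2 : 0 < Nat.card (W.reductionMod q).toAffine.Point := Nat.card_pos
  rw [Nat.card_zmod] at h1
  unfold WeierstrassCurve.apOfModel WeierstrassCurve.traceOfFrobenius WeierstrassCurve.card
  rw [Nat.card_zmod]
  constructor <;> omega

end Fermat.Agent.S58
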