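/-
S58, tasks Test-a / Test-b / Test-c: the torsion modules `E[λ^n]` of the elliptic curve as `S31.TestModule`s, and the transfer of quadratic relations
from `E[λ^n]` to any 2-dimensional representation `ρ` with the same Frobenius characteristic polynomials.

`Tor W m := Submodule.torsionBy ℤ (Pts W) m` carries the Prelude Galois action (`instDistribMulActionTorsionBy`) and `Module (ZMod m)`.

MATH.
Test-a (`testModule`, the four `sorry`s):
 * `finite_tor`: `EC.card_torsion` (`Nat.card = m² ≠ 0`, `Nat.finite_of_card_ne_zero`), after the bijection `Tor W m ≃ {P // m • P = 0}` (`Submodule.mem_torsionBy_iff`, `natCast_zsmul`).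
   `((EQ W)⁄Qb).Δ = algebraMap (W.Δ) ≠ 0` (`WeierstrassCurve.map_Δ`).
 * `finiteLevel`: `finiteLevel_of_smooth'`; for `P = 0` take `L = ⊥`; for `P = (x, y)` take `L = ℚ(x, y)` (`IntermediateField.adjoin ℚ {x, y}`, finite dimensional because `x, y` are algebraic:
   `IntermediateField.finiteDimensional_adjoin` + `Algebra.IsIntegral.isIntegral`); `σ • (x, y) = (σ x, σ y)` is `rfl`-like (`Point.map_some`).
 * `es` : `EC.quadRel_frobenius`;  `unram` : `EC.smul_eq_of_inertia_of_good`.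
Test-b (`charpoly_of_quadRel`, `isUnipotentOnInertiaAt_of_semistable`): `S31.charpoly_of_quadratic ρ hlam S hlamS (fun ℓ => (W.apOfModel ℓ : T)) hchar hsep hlamT g c d`, with, for given `k`, `n := k`, `q'` := a good prime `≠ lam`
   (`Nat.exists_infinite_primes`: a prime `> lam + |Δ|`), `Y := testModule ...`.  FAITHFULNESS: `Y.hecke ℓ = ((a_ℓ : ℤ) : End)`, so `aeval (Y.hecke ℓ) f = ((f.eval a_ℓ : ℤ) : End)` (induction on `f`, or `Polynomial.aeval_algebraMap_apply`/`eval₂` + `map_intCast`),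
   so `z := f.eval a_ℓ - f'.eval a_ℓ'` kills `E[lam^n]`, `EC.dvd_of_kill` gives `lam^n ∣ z`, hence `(z : T) ∈ 𝔪^n`.
   Unipotence: `c = 2`, `d = 1`, `EC.quadRel_inertia`, `S31.inertia_apply_root` (copy the end of the proof of `S31.isUnipotentOnInertiaAt_of_tests`).
Test-c (`exists_rel`): `S31.approx_det ρ hlam S hlamS _ hchar Y 1 ζ hζ g` with `n = 1`, `ζ` a primitive `lam`-th root of unity gives `ℓ, j`;  `t := (dickson 1 (ℓ:ℤ) j).eval a_ℓ`, `d := ℓ^j`;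
   the relation `T = g + d g⁻¹` on `E[lam]`, applied to `g • P`, gives `QuadRel`.  Every `ζ'` with `ζ'^lam = 1` is a power of `ζ` (`IsPrimitiveRoot.eq_pow_of_pow_eq_one`).
-/
import Mathlib
import Fermat.Agent.S58.Defs
import Fermat.Agent.S58.EC.Tors
import Fermat.Agent.S58.EC.Frob
import Fermat.Agent.S58.EC.Unip
import Fermat.Agent.S31.Transfer

set_option autoImplicit false

namespace Fermat.Agent.S58

open WeierstrassCurve WeierstrassCurve.Affine Polynomial IsLocalRing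
open Fermat.Agent.S31 (Qb GQ)

/-- `E[m]`, with the Prelude Galois action. -/
abbrev Tor (W : WeierstrassCurve ℤ) (m : ℕ) : Type := Submodule.torsionBy ℤ (Pts W) (m : ℤ)

theorem finiteLevel_of_smooth' {M : Type} [AddCommGroup M] [Finite M] (gal : GQ →* AddMonoid.End M)
    (h : ∀ x : M, ∃ L : IntermediateField ℚ Qb, FiniteDimensional ℚ L ∧
      ∀ σ : GQ, (∀ y ∈ L, σ y = y) → gal σ x = x) :
    GaloisFactorsThroughFiniteLevel gal := by
  choose L hL hfix using h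
  refine ⟨⨆ x, L x, inferInstance, fun σ hσ => ?_⟩
  ext x
  exact hfix x σ fun y hy => hσ y (le_iSup L x hy)

theorem Test_Δ_ne_zero (W : WeierstrassCurve ℤ) (hΔ : W.Δ ≠ 0) : ((EQ W)⁄Qb).Δ ≠ 0 := by
  have eΔ : ((EQ W)⁄Qb).Δ = algebraMap ℚ Qb ((W.Δ : ℤ) : ℚ) :=
    (WeierstrassCurve.map_Δ ..).trans (congrArg _ (WeierstrassCurve.map_Δ ..))
  rw [eΔ]
  simpa using hΔ

theorem Test_nsmul_coe (W : WeierstrassCurve ℤ) (m : ℕ) (x : Tor W m) : m • (x : Pts W) = 0 := by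
  have h := (Submodule.mem_torsionBy_iff _ _).1 x.2
  rwa [natCast_zsmul] at h

theorem card_tor (W : WeierstrassCurve ℤ) (hΔ : W.Δ ≠ 0) (m : ℕ) (hm : 0 < m) :
    Nat.card (Tor W m) = m ^ 2 := by
  rw [← EC.card_torsion (V := ((EQ W)⁄Qb).toAffine) (Test_Δ_ne_zero W hΔ) m hm]
  refine Nat.card_congr (Equiv.subtypeEquivRight fun P => ?_)
  rw [Submodule.mem_torsionBy_iff, natCast_zsmul]

theorem finite_tor (W : WeierstrassCurve ℤ) (hΔ : W.Δ ≠ 0) (m : ℕ) (hm : 0 < m) :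
    Finite (Tor W m) := by
  apply Nat.finite_of_card_ne_zero
  rw [card_tor W hΔ m hm]
  positivity

theorem Test_smooth (W : WeierstrassCurve ℤ) (m : ℕ) (x : Tor W m) :
    ∃ L : IntermediateField ℚ Qb, FiniteDimensional ℚ L ∧ ∀ σ : GQ, (∀ y ∈ L, σ y = y) →
      DistribMulAction.toAddMonoidEnd GQ (Tor W m) σ x = x := by
  obtain ⟨P, hP⟩ := x
  rcases P with _ | ⟨a, b, h⟩
  · exact ⟨⊥, inferInstance, fun σ _ => Subtype.ext rfl⟩
  · refine ⟨IntermediateField.adjoin ℚ {a, b}, ?_, fun σ hσ => ?_⟩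
    · apply IntermediateField.finiteDimensional_adjoin
      intro z _
      have h1 : IsAlgClosure ℚ (AlgebraicClosure ℚ) :=
        (inferInstance :
          @IsAlgClosure ℚ (AlgebraicClosure ℚ) _ _ (AlgebraicClosure.instAlgebra ℚ) _)
      have h2 : Algebra.IsAlgebraic ℚ Qb := IsAlgClosure.isAlgebraic
      exact (h2.isAlgebraic z).isIntegral
    · apply Subtype.ext
      have ha : σ a = a := hσ a (IntermediateField.subset_adjoin _ _ (by simp))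
      have hb : σ b = b := hσ b (IntermediateField.subset_adjoin _ _ (by simp))
      show Point.map (W' := EQ W) σ.toAlgHom (Point.some a b h) = Point.some a b h
      rw [Point.map_some]
      simp [ha, hb]

theorem Test_finiteLevel (W : WeierstrassCurve ℤ) (hΔ : W.Δ ≠ 0) (m : ℕ) (hm : 0 < m) :
    GaloisFactorsThroughFiniteLevel (DistribMulAction.toAddMonoidEnd GQ (Tor W m)) := by
  have := finite_tor W hΔ m hm
  exact finiteLevel_of_smooth' _ (Test_smooth W m)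

theorem Test_es (W : WeierstrassCurve ℤ) {m : ℕ} (hm : Odd m) {ℓ : ℕ} (hℓ : ℓ.Prime)
    (hgood : W.IsGoodPrimeFor ℓ) (hℓm : ¬ ℓ ∣ m) (A : ValuationSubring Qb)
    (hA : A.LiesOverPrime ℓ) (φ : GQ) (hφ : A.IsFrobeniusAt φ ℓ) (x : Tor W m) :
    DistribMulAction.toAddMonoidEnd GQ (Tor W m) φ
        (DistribMulAction.toAddMonoidEnd GQ (Tor W m) φ x) -
      ((W.apOfModel ℓ : ℤ) : AddMonoid.End (Tor W m))
        (DistribMulAction.toAddMonoidEnd GQ (Tor W m) φ x) + ℓ • x = 0 := by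
  have h := EC.quadRel_frobenius W hℓ hgood hm hℓm A hA φ hφ (x : Pts W) (Test_nsmul_coe W m x)
  rw [natCast_zsmul] at h
  apply Subtype.ext
  rw [AddMonoid.End.intCast_apply]
  exact h

theorem Test_unram (W : WeierstrassCurve ℤ) {m : ℕ} {q : ℕ} (hq : q.Prime)
    (hgood : W.IsGoodPrimeFor q) (hqm : ¬ q ∣ m) (A : ValuationSubring Qb)
    (hA : A.LiesOverPrime q) (τ : GQ) (hτ : τ ∈ A.inertiaSubgroupIn ℚ) :
    DistribMulAction.toAddMonoidEnd GQ (Tor W m) τ = 1 := by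
  ext x
  exact EC.smul_eq_of_inertia_of_good W hq hgood hqm A hA τ hτ (x : Pts W) (Test_nsmul_coe W m x)

theorem Test_not_dvd_pow {lam ℓ : ℕ} (hlam : lam.Prime) (hℓ : ℓ.Prime) (hne : ℓ ≠ lam) (n : ℕ) :
    ¬ ℓ ∣ lam ^ n := fun h =>
  hne ((Nat.prime_dvd_prime_iff_eq hℓ hlam).1 (hℓ.dvd_of_dvd_pow h))

/-- the test module `E[lam^n]`; `T_ℓ` acts as the integer `a_ℓ(W)`. -/
noncomputable def testModule (W : WeierstrassCurve ℤ) (hΔ : W.Δ ≠ 0) {lam : ℕ} (hlam : lam.Prime)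
    (hlam2 : lam ≠ 2) (S : Finset ℕ) (hlamS : lam ∈ S)
    (hS : ∀ ℓ : ℕ, ℓ.Prime → (ℓ : ℤ) ∣ W.Δ → ℓ ∈ S) {q : ℕ} (hq : q.Prime) (hqlam : q ≠ lam)
    (hqΔ : ¬ (q : ℤ) ∣ W.Δ) (n : ℕ) : S31.TestModule lam S q n where
  M := Tor W (lam ^ n)
  gal := DistribMulAction.toAddMonoidEnd GQ (Tor W (lam ^ n))
  hecke ℓ := ((W.apOfModel ℓ : ℤ) : AddMonoid.End (Tor W (lam ^ n)))
  finiteLevel := by
    exact Test_finiteLevel W hΔ _ (pow_pos hlam.pos n)
  kill := by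
    intro x
    exact Subtype.ext (Test_nsmul_coe W _ x)
  es := by
    intro ℓ hℓ hℓS A hA φ hφ x
    exact Test_es W ((hlam.odd_of_ne_two hlam2).pow) hℓ (fun h => hℓS (hS ℓ hℓ h))
      (Test_not_dvd_pow hlam hℓ (fun h => hℓS (h ▸ hlamS)) n) A hA φ hφ x
  unram := by
    intro A hA τ hτ
    exact Test_unram W hq hqΔ (Test_not_dvd_pow hlam hq hqlam n) A hA τ hτ

/-- (helper, Test-b) evaluation of an integral polynomial at an integer of a ring. -/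
theorem Testb_aeval_intCast {B : Type*} [Ring B] (a : ℤ) (f : ℤ[X]) :
    aeval ((a : ℤ) : B) f = ((f.eval a : ℤ) : B) := by
  have h := Polynomial.aeval_algebraMap_apply B a f
  simpa using h

/-- (helper, Test-b) the discriminant over `Qb`. -/
theorem Testb_Δ_ne_zero (W : WeierstrassCurve ℤ) (hΔ : W.Δ ≠ 0) : ((EQ W)⁄Qb).Δ ≠ 0 := by
  change ((W.map (Int.castRingHom ℚ)).map (algebraMap ℚ Qb)).Δ ≠ 0
  rw [WeierstrassCurve.map_Δ, WeierstrassCurve.map_Δ]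
  simpa using hΔ

/-- (helper, Test-b) the elements of `Tor`. -/
theorem Testb_mem_tor (W : WeierstrassCurve ℤ) (m : ℕ) (P : Pts W) :
    P ∈ Submodule.torsionBy ℤ (Pts W) (m : ℤ) ↔ m • P = 0 := by
  rw [Submodule.mem_torsionBy_iff, natCast_zsmul]

section

variable {T : Type} [CommRing T] [IsLocalRing T] (ρ : GaloisRepAdic T)
  (W : WeierstrassCurve ℤ) (hΔ : W.Δ ≠ 0) {lam : ℕ} (hlam : lam.Prime) (hlam2 : lam ≠ 2)
  (S : Finset ℕ) (hlamS : lam ∈ S) (hS : ∀ ℓ : ℕ, ℓ.Prime → (ℓ : ℤ) ∣ W.Δ → ℓ ∈ S)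
  (hchar : ∀ ℓ : ℕ, ℓ.Prime → ℓ ∉ S → ∀ A : ValuationSubring Qb, A.LiesOverPrime ℓ →
    ∀ φ : GQ, A.IsFrobeniusAt φ ℓ →
      LinearMap.charpoly (ρ.ρ φ) = X ^ 2 - C ((W.apOfModel ℓ : ℤ) : T) * X + C ((ℓ : ℕ) : T))

include hΔ hlam hlam2 hlamS hS hchar

/-- **Transfer**: a quadratic relation on all `E[lam^n]` computes the characteristic polynomial. -/
theorem charpoly_of_quadRel (hsep : ⨅ n : ℕ, maximalIdeal T ^ n = ⊥)
    (hlamT : (lam : T) ∈ maximalIdeal T) (g : GQ) (c d : ℤ)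
    (hcyc : ∀ n : ℕ, ∀ ζ : Qb, ζ ^ (lam ^ n) = 1 →
      ∃ e : ℕ, g ζ = ζ ^ e ∧ (e : ℤ) ≡ d [ZMOD (lam ^ n : ℕ)])
    (hquad : ∀ n : ℕ, QuadRel W (lam ^ n) g c d) :
    LinearMap.charpoly (ρ.ρ g) = X ^ 2 - C (c : T) * X + C (d : T) := by
  -- an auxiliary good prime
  obtain ⟨q', hq', hq'lam, hq'Δ⟩ : ∃ q' : ℕ, q'.Prime ∧ q' ≠ lam ∧ ¬ (q' : ℤ) ∣ W.Δ := by
    obtain ⟨q', h1, h2⟩ := Nat.exists_infinite_primes (lam + W.Δ.natAbs + 1)
    refine ⟨q', h2, by omega, fun hd => ?_⟩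
    have h3 : q' ∣ W.Δ.natAbs := Int.natCast_dvd.1 hd
    have h4 := Nat.le_of_dvd (Int.natAbs_pos.2 hΔ) h3
    omega
  refine S31.charpoly_of_quadratic ρ hlam S hlamS (fun ℓ => ((W.apOfModel ℓ : ℤ) : T)) hchar hsep
    hlamT g c d (fun k => ?_)
  refine ⟨k, q', testModule W hΔ hlam hlam2 S hlamS hS hq' hq'lam hq'Δ k, le_rfl, hcyc k, ?_, ?_⟩
  · intro x
    change Tor W (lam ^ k) at x
    have hx : (lam ^ k) • (x : Pts W) = 0 := (Testb_mem_tor W (lam ^ k) _).1 x.2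
    exact Subtype.ext (hquad k _ hx)
  · intro ℓ ℓ' hℓ hℓS hℓ' hℓS' f f' hff
    change aeval ((W.apOfModel ℓ : ℤ) : AddMonoid.End (Tor W (lam ^ k))) f
      = aeval ((W.apOfModel ℓ' : ℤ) : AddMonoid.End (Tor W (lam ^ k))) f' at hff
    rw [Testb_aeval_intCast, Testb_aeval_intCast] at hff
    rw [Testb_aeval_intCast, Testb_aeval_intCast, ← Int.cast_sub]
    have hkill : ∀ P : Pts W, (lam ^ k) • P = 0 →
        (f.eval (W.apOfModel ℓ) - f'.eval (W.apOfModel ℓ')) • P = 0 := by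
      intro P hP
      have h1 := congrArg (fun e : AddMonoid.End (Tor W (lam ^ k)) =>
        ((e ⟨P, (Testb_mem_tor W (lam ^ k) P).2 hP⟩ : Tor W (lam ^ k)) : Pts W)) hff
      simp only [AddMonoid.End.intCast_apply] at h1
      rw [sub_smul, sub_eq_zero]
      exact h1
    obtain ⟨w, hw⟩ := EC.dvd_of_kill (Testb_Δ_ne_zero W hΔ) (lam ^ k) (pow_pos hlam.pos k) _ hkill
    rw [hw]
    push_cast
    exact Ideal.mul_mem_right _ _ (Ideal.pow_mem_pow hlamT k)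

/-- Frobenius at a good prime `ℓ₀ ≠ lam` (possibly in `S`). -/
theorem charpoly_frobenius_of_good (hsep : ⨅ n : ℕ, maximalIdeal T ^ n = ⊥)
    (hlamT : (lam : T) ∈ maximalIdeal T) {ℓ₀ : ℕ} (hℓ₀ : ℓ₀.Prime) (hne : ℓ₀ ≠ lam)
    (hgood : W.IsGoodPrimeFor ℓ₀) (A : ValuationSubring Qb) (hA : A.LiesOverPrime ℓ₀) (φ : GQ)
    (hφ : A.IsFrobeniusAt φ ℓ₀) :
    LinearMap.charpoly (ρ.ρ φ) = X ^ 2 - C ((W.apOfModel ℓ₀ : ℤ) : T) * X + C ((ℓ₀ : ℕ) : T) := by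
  have hnd : ∀ n : ℕ, ¬ ℓ₀ ∣ lam ^ n := fun n h =>
    hne ((Nat.prime_dvd_prime_iff_eq hℓ₀ hlam).mp (hℓ₀.dvd_of_dvd_pow h))
  have hodd : ∀ n : ℕ, Odd (lam ^ n) := fun n => (hlam.odd_of_ne_two hlam2).pow
  have h := charpoly_of_quadRel ρ W hΔ hlam hlam2 S hlamS hS hchar hsep hlamT φ (W.apOfModel ℓ₀)
    (ℓ₀ : ℤ)
    (fun n ζ hζ => ⟨ℓ₀, S31.frob_apply_root A hℓ₀ hA φ hφ (hnd n) hζ, Int.ModEq.refl _⟩)
    (fun n => EC.quadRel_frobenius W hℓ₀ hgood (hodd n) (hnd n) A hA φ hφ)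
  rw [h, Int.cast_natCast]

theorem isUnipotentOnInertiaAt_of_semistable (hsep : ⨅ n : ℕ, maximalIdeal T ^ n = ⊥)
    (hlamT : (lam : T) ∈ maximalIdeal T) (hss : W.IsSemistableModel) {q : ℕ} (hq : q.Prime)
    (hqlam : q ≠ lam) : ρ.IsUnipotentOnInertiaAt q := by
  intro P hP σ hσ
  have hnd : ∀ n : ℕ, ¬ q ∣ lam ^ n := fun n h =>
    hqlam ((Nat.prime_dvd_prime_iff_eq hq hlam).mp (hq.dvd_of_dvd_pow h))
  have hodd : ∀ n : ℕ, Odd (lam ^ n) := fun n => (hlam.odd_of_ne_two hlam2).pow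
  have h := charpoly_of_quadRel ρ W hΔ hlam hlam2 S hlamS hS hchar hsep hlamT σ 2 1
    (fun n ζ hζ => ⟨1, by rw [pow_one, S31.inertia_apply_root P hq hP σ hσ (hnd n) hζ], by simp⟩)
    (fun n => EC.quadRel_inertia W hq hΔ (hss q hq) (hodd n) (hnd n) P hP σ hσ)
  rw [h]
  simp only [Int.cast_ofNat, Int.cast_one, map_one]
  have h2 : (C (2 : T) : T[X]) = 2 := rfl
  rw [h2]
  ring

/-- every `g` satisfies on `E[lam]` a quadratic relation which is, modulo `𝔪`, the characteristic polynomial of `ρ g`. -/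
theorem exists_rel (g : GQ) :
    ∃ t d : ℤ, QuadRel W lam g t d ∧
      (∀ ζ : Qb, ζ ^ lam = 1 → ∃ e : ℕ, g ζ = ζ ^ e ∧ (e : ℤ) ≡ d [ZMOD (lam : ℕ)]) ∧
      LinearMap.trace T ρ.V (ρ.ρ g) - (t : T) ∈ maximalIdeal T ∧
      LinearMap.det (ρ.ρ g) - (d : T) ∈ maximalIdeal T := by
  -- an auxiliary good prime
  obtain ⟨q, hqge, hq⟩ := Nat.exists_infinite_primes (lam + W.Δ.natAbs + 1)
  have hqlam : q ≠ lam := by omega
  have hqΔ : ¬ (q : ℤ) ∣ W.Δ := by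
    intro hdvd
    have h1 : q ∣ W.Δ.natAbs := Int.natCast_dvd.1 hdvd
    have h2 : q ≤ W.Δ.natAbs := Nat.le_of_dvd (Int.natAbs_pos.2 hΔ) h1
    omega
  let Y := testModule W hΔ hlam hlam2 S hlamS hS hq hqlam hqΔ 1
  have : NeZero lam := ⟨hlam.ne_zero⟩
  obtain ⟨ζ, hζ⟩ : ∃ ζ : Qb, IsPrimitiveRoot ζ lam :=
    HasEnoughRootsOfUnity.exists_primitiveRoot Qb lam
  have hζ1 : ζ ^ (lam ^ 1) = 1 := by rw [pow_one]; exact hζ.pow_eq_one
  obtain ⟨ℓ, j, hℓ, hℓS, hz, hM, ht, hd⟩ :=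
    S31.approx_det ρ hlam S hlamS (fun ℓ => ((W.apOfModel ℓ : ℤ) : T)) hchar Y 1 ζ hζ1 g
  rw [pow_one] at ht hd
  refine ⟨(dickson 1 ((ℓ : ℕ) : ℤ) j).eval (W.apOfModel ℓ), ((ℓ ^ j : ℕ) : ℤ), ?_, ?_, ?_, ?_⟩
  · -- the quadratic relation
    intro P hP
    have hPmem : P ∈ Submodule.torsionBy ℤ (Pts W) ((lam ^ 1 : ℕ) : ℤ) := by
      rw [Submodule.mem_torsionBy_iff, pow_one, natCast_zsmul]
      exact hP
    let x : Tor W (lam ^ 1) := ⟨P, hPmem⟩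
    have hh : aeval (Y.hecke ℓ) (dickson 1 ((ℓ : ℕ) : ℤ) j)
        = (((dickson 1 ((ℓ : ℕ) : ℤ) j).eval (W.apOfModel ℓ) : ℤ) :
            AddMonoid.End (Tor W (lam ^ 1))) := by
      have h1 := Polynomial.aeval_algebraMap_apply_eq_algebraMap_eval
        (A := AddMonoid.End (Tor W (lam ^ 1))) (W.apOfModel ℓ) (dickson 1 ((ℓ : ℕ) : ℤ) j)
      rw [eq_intCast, eq_intCast] at h1
      exact h1
    have h1 := congrArg (fun f : AddMonoid.End (Tor W (lam ^ 1)) => f (g • x)) (hh.symm.trans hM)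
    have h2 : ((dickson 1 ((ℓ : ℕ) : ℤ) j).eval (W.apOfModel ℓ)) • (g • x)
        = g • g • x + (ℓ ^ j : ℕ) • (g⁻¹ • g • x) := by
      have h3 := h1
      simp only [AddMonoid.End.intCast_apply] at h3
      exact h3
    rw [inv_smul_smul] at h2
    have h3 := congrArg (fun y : Tor W (lam ^ 1) => (y : Pts W)) h2
    have h4 : ((dickson 1 ((ℓ : ℕ) : ℤ) j).eval (W.apOfModel ℓ)) • (g • P)
        = g • g • P + (ℓ ^ j : ℕ) • P := h3
    rw [h4, natCast_zsmul]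
    abel
  · intro ζ' hζ'
    obtain ⟨i, -, rfl⟩ := hζ.eq_pow_of_pow_eq_one hζ'
    exact ⟨ℓ ^ j, by rw [map_pow, hz, ← pow_mul, ← pow_mul, mul_comm], Int.ModEq.refl _⟩
  · have h1 := Polynomial.aeval_algebraMap_apply_eq_algebraMap_eval
      (A := T) (W.apOfModel ℓ) (dickson 1 ((ℓ : ℕ) : ℤ) j)
    rw [eq_intCast, eq_intCast] at h1
    rw [← h1]
    exact ht
  · rw [Int.cast_natCast]
    exact hd

end

end Fermat.Agent.S58
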