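/-
S58, tasks Stab-a / Stab-b: `q`-stabilisation.  A normalized eigenform `g` of level `M`, `q ∤ M`, gives a normalized eigenform of level `M q` with the same `a_ℓ`, `ℓ ≠ q`.

MATH.  `α, β` the roots of `X² - a_q X + q` (`α + β = a_q`, `α β = q`, so `α ≠ 0`; existence: `IsAlgClosed.exists_root`/`Complex` quadratic: take a root `α` of `X² - C a_q X + C q`, `β := a_q - α`).
`g' := α⁻¹ • (U_q (levelUp g) - β • levelUp g)` has coefficients `c n = (a (n q) - β a n) / α` (`S49.qCoeff_heckeULin`, `S49.qCoeff_smul`, `(S49.qCoeffLin _ _ n).map_sub`, `qCoeff_levelUp`).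
Stab-a (`stab_isNormalizedEigenform`), pure arithmetic of `a n := qCoeff g n`:
 (F1) `a (q^(r+1)) - β a (q^r) = α^(r+1)` (induction on `r`, `hg.qCoeff_prime_pow_of_not_dvd q r hq hqM`, `a 1 = 1`);
 (F2) for `q ∤ m`: `c (q^r m) = α^r a m` (`hg.qCoeff_mul_of_coprime`, (F1));  every `n ≠ 0` is `q^r m` with `q ∤ m` (`Nat.exists_eq_pow_mul_and_not_dvd`);
 (F3) `Nat.Coprime 0 n ↔ n = 1`;  `c 1 = 1`;
 multiplicativity: `m = q^r m'`, `n = q^s n'`, `r = 0` or `s = 0`;  `c (m n) = α^(r+s) a (m' n')`;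
 prime powers: `p ≠ q`: `c (p^j) = a (p^j)` and `p ∣ M q ↔ p ∣ M`;  `p = q`: `c (q^j) = α^j`.
Stab-b (`exists_stab_form`, `exists_stab`, `exists_eigenform_mul`): induction on `D` (e.g. `Nat.recOnPosPrimePosCoprime`, `induction_on_primes`, or strong induction taking `q := D.minFac`); to avoid casts prove
 `∀ D N, N = M * D → Squarefree D → M.Coprime D → ∃ g' : CuspForm (Gamma0 N) 2, ...` and `subst`.
-/
import Mathlib
import Fermat.Agent.S49.QCoeff
import Fermat.Prelude.Def_FLTPrelim_Modularity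

set_option autoImplicit false

namespace Fermat.Agent.S58

open CongruenceSubgroup ModularFormClass UpperHalfPlane

theorem Gamma0_le_of_dvd' {M N : ℕ} (h : M ∣ N) : Gamma0 N ≤ Gamma0 M := by
  intro A hA
  rw [Gamma0_mem] at hA ⊢
  rw [ZMod.intCast_zmod_eq_zero_iff_dvd] at hA ⊢
  exact (Int.natCast_dvd_natCast.mpr h).trans hA

/-- a cusp form of level `M` is a cusp form of level `N` for `M ∣ N`. -/
noncomputable def levelUp {M N : ℕ} (h : M ∣ N) (g : CuspForm (Gamma0 M) 2) :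
    CuspForm (Gamma0 N) 2 where
  toFun := g
  slash_action_eq' γ hγ := g.slash_action_eq' γ (Subgroup.map_mono (Gamma0_le_of_dvd' h) hγ)
  holo' := g.holo'
  zero_at_cusps' hc := g.zero_at_cusps' (hc.mono (Subgroup.map_mono (Gamma0_le_of_dvd' h)))

theorem qCoeff_levelUp {M N : ℕ} (h : M ∣ N) (g : CuspForm (Gamma0 M) 2) (n : ℕ) :
    qCoeff (levelUp h g) n = qCoeff g n := rfl

/-- task Stab-b -/
theorem exists_stab_form {M q : ℕ} (hM : M ≠ 0) (hq : q.Prime) (g : CuspForm (Gamma0 M) 2)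
    (α β : ℂ) :
    ∃ g' : CuspForm (Gamma0 (M * q)) 2,
      ∀ n : ℕ, qCoeff g' n = (qCoeff g (n * q) - β * qCoeff g n) / α := by
  have hMq : M * q ≠ 0 := Nat.mul_ne_zero hM hq.ne_zero
  haveI : NeZero (M * q) := ⟨hMq⟩
  let g0 : CuspForm (Gamma0 (M * q)) 2 := levelUp (Dvd.intro q rfl) g
  refine ⟨α⁻¹ • (CuspForm.heckeULin 2 (Dvd.intro_left M rfl) g0 - β • g0), fun n => ?_⟩
  rw [S49.qCoeff_smul]
  have h1 : qCoeff (⇑(CuspForm.heckeULin 2 (Dvd.intro_left M rfl) g0 - β • g0)) n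
      = qCoeff (CuspForm.heckeULin 2 (Dvd.intro_left M rfl) g0) n - qCoeff (⇑(β • g0)) n :=
    (S49.qCoeffLin (M * q) 2 n).map_sub _ _
  rw [h1, S49.qCoeff_heckeULin hq, S49.qCoeff_smul, qCoeff_levelUp, qCoeff_levelUp, div_eq_inv_mul]

/-- task Stab-a -/
theorem stab_isNormalizedEigenform {M q : ℕ} (hq : q.Prime) (hqM : ¬ q ∣ M)
    {g : CuspForm (Gamma0 M) 2} (hg : g.IsNormalizedEigenform) {α β : ℂ}
    (hsum : α + β = qCoeff g q) (hprod : α * β = q) {g' : CuspForm (Gamma0 (M * q)) 2}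
    (hg' : ∀ n : ℕ, qCoeff g' n = (qCoeff g (n * q) - β * qCoeff g n) / α) :
    g'.IsNormalizedEigenform ∧ ∀ ℓ : ℕ, ℓ.Prime → ℓ ≠ q → qCoeff g' ℓ = qCoeff g ℓ := by
  have key : ∀ (a c : ℕ → ℂ), a 1 = 1 →
      (∀ m n : ℕ, m.Coprime n → a (m * n) = a m * a n) →
      (∀ p r : ℕ, p.Prime → ¬ p ∣ M → a (p ^ (r + 2)) = a p * a (p ^ (r + 1)) - p * a (p ^ r)) →
      (∀ p r : ℕ, p.Prime → p ∣ M → a (p ^ (r + 2)) = a p * a (p ^ (r + 1))) →
      α + β = a q → (∀ n : ℕ, c n = (a (n * q) - β * a n) / α) →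
      c 1 = 1 ∧ (∀ m n : ℕ, m.Coprime n → c (m * n) = c m * c n) ∧
      (∀ p r : ℕ, p.Prime → ¬ p ∣ M * q →
        c (p ^ (r + 2)) = c p * c (p ^ (r + 1)) - p * c (p ^ r)) ∧
      (∀ p r : ℕ, p.Prime → p ∣ M * q → c (p ^ (r + 2)) = c p * c (p ^ (r + 1))) ∧
      ∀ ℓ : ℕ, ℓ.Prime → ℓ ≠ q → c ℓ = a ℓ := by
    intro a c h1 hmul hnd hd hsum hc
    have hα : α ≠ 0 := by
      rintro rfl
      rw [zero_mul] at hprod
      exact hq.ne_zero (by exact_mod_cast hprod.symm)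
    have F1 : ∀ r : ℕ, a (q ^ (r + 1)) - β * a (q ^ r) = α ^ (r + 1) := by
      intro r
      induction r with
      | zero => simp only [zero_add, pow_one, pow_zero, h1]; rw [← hsum]; ring
      | succ r ih =>
        rw [hnd q r hq hqM, ← hsum, ← hprod, pow_succ α (r + 1), ← ih]
        ring
    have F2 : ∀ (r m : ℕ), ¬ q ∣ m → c (q ^ r * m) = α ^ r * a m := by
      intro r m hm
      have hcop : ∀ j : ℕ, (q ^ j).Coprime m := fun j =>
        Nat.Coprime.pow_left _ ((Nat.Prime.coprime_iff_not_dvd hq).2 hm)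
      have e : q ^ r * m * q = q ^ (r + 1) * m := by ring
      rw [hc, e, hmul _ _ (hcop _), hmul _ _ (hcop _)]
      have : a (q ^ (r + 1)) * a m - β * (a (q ^ r) * a m) = α ^ (r + 1) * a m := by
        rw [← F1 r]; ring
      rw [this, pow_succ]
      field_simp
    have F3 : ∀ n : ℕ, ¬ q ∣ n → c n = a n := by
      intro n hn
      have := F2 0 n hn
      simpa using this
    have F4 : ∀ j : ℕ, c (q ^ j) = α ^ j := by
      intro j
      have := F2 j 1 (by simpa using hq.one_lt.ne')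
      simpa [h1] using this
    have c1 : c 1 = 1 := by
      have := F4 0
      simpa using this
    refine ⟨c1, ?_, ?_, ?_, ?_⟩
    · intro m n hmn
      rcases Nat.eq_zero_or_pos m with rfl | hm
      · have : n = 1 := by simpa using hmn
        subst this
        rw [c1, mul_one, mul_one]
      rcases Nat.eq_zero_or_pos n with rfl | hn
      · have : m = 1 := by simpa using hmn
        subst this
        rw [c1, one_mul, one_mul]
      obtain ⟨r, m', hm', rfl⟩ := Nat.exists_eq_pow_mul_and_not_dvd hm.ne' q hq.ne_one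
      obtain ⟨s, n', hn', rfl⟩ := Nat.exists_eq_pow_mul_and_not_dvd hn.ne' q hq.ne_one
      have e : q ^ r * m' * (q ^ s * n') = q ^ (r + s) * (m' * n') := by ring
      have hcop : m'.Coprime n' :=
        Nat.Coprime.coprime_dvd_left (Dvd.intro_left _ rfl)
          (Nat.Coprime.coprime_dvd_right (Dvd.intro_left _ rfl) hmn)
      have hnd' : ¬ q ∣ m' * n' := fun h => (hq.dvd_mul.mp h).elim hm' hn'
      rw [e, F2 _ _ hnd', F2 _ _ hm', F2 _ _ hn', hmul _ _ hcop, pow_add]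
      ring
    · intro p r hp hpd
      have hpq : p ≠ q := by
        rintro rfl
        exact hpd (Dvd.intro_left _ rfl)
      have hpM : ¬ p ∣ M := fun h => hpd (h.mul_right _)
      have hqp : ∀ j : ℕ, ¬ q ∣ p ^ j := fun j h =>
        hpq ((Nat.prime_dvd_prime_iff_eq hq hp).mp (hq.dvd_of_dvd_pow h)).symm
      have hqp1 : ¬ q ∣ p := by simpa using hqp 1
      rw [F3 _ (hqp _), F3 _ (hqp _), F3 _ (hqp _), F3 _ hqp1]
      exact hnd p r hp hpM
    · intro p r hp hpd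
      by_cases hpq : p = q
      · subst hpq
        have := F4 1
        rw [pow_one] at this
        rw [F4, F4, this]
        ring
      · have hpM : p ∣ M := (hp.dvd_mul.mp hpd).resolve_right
          fun h => hpq ((Nat.prime_dvd_prime_iff_eq hp hq).mp h)
        have hqp : ∀ j : ℕ, ¬ q ∣ p ^ j := fun j h =>
          hpq ((Nat.prime_dvd_prime_iff_eq hq hp).mp (hq.dvd_of_dvd_pow h)).symm
        have hqp1 : ¬ q ∣ p := by simpa using hqp 1
        rw [F3 _ (hqp _), F3 _ (hqp _), F3 _ hqp1]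
        exact hd p r hp hpM
    · intro ℓ hℓ hne
      exact F3 _ fun h => hne ((Nat.prime_dvd_prime_iff_eq hq hℓ).mp h).symm
  obtain ⟨k1, k2, k3, k4, k5⟩ := key (fun n => qCoeff g n) (fun n => qCoeff g' n) hg.qCoeff_one
    hg.qCoeff_mul_of_coprime hg.qCoeff_prime_pow_of_not_dvd hg.qCoeff_prime_pow_of_dvd hsum hg'
  exact ⟨⟨k1, k2, k3, k4⟩, k5⟩

/-- task Stab-b -/
theorem exists_stab {M q : ℕ} (hM : M ≠ 0) (hq : q.Prime) (hqM : ¬ q ∣ M)
    {g : CuspForm (Gamma0 M) 2} (hg : g.IsNormalizedEigenform) :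
    ∃ g' : CuspForm (Gamma0 (M * q)) 2, g'.IsNormalizedEigenform ∧
      ∀ ℓ : ℕ, ℓ.Prime → ℓ ≠ q → qCoeff g' ℓ = qCoeff g ℓ := by
  obtain ⟨α, hα⟩ : ∃ α : ℂ, α * α - qCoeff g q * α + q = 0 := by
    obtain ⟨α, hα⟩ := IsAlgClosed.exists_root
      (Polynomial.X ^ 2 - Polynomial.C (qCoeff g q) * Polynomial.X + Polynomial.C (q : ℂ))
      (by
        have : (Polynomial.X ^ 2 - Polynomial.C (qCoeff g q) * Polynomial.X
            + Polynomial.C (q : ℂ)).degree = 2 := by compute_degree!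
        rw [this]; decide)
    refine ⟨α, ?_⟩
    simp only [Polynomial.IsRoot.def, Polynomial.eval_add, Polynomial.eval_sub,
      Polynomial.eval_pow, Polynomial.eval_X, Polynomial.eval_mul, Polynomial.eval_C] at hα
    rw [← hα]; ring
  obtain ⟨g', hg'⟩ := exists_stab_form hM hq g α (qCoeff g q - α)
  exact ⟨g', stab_isNormalizedEigenform hq hqM hg (by ring) (by linear_combination -hα) hg'⟩

/-- task Stab-b -/
theorem exists_eigenform_mul {M : ℕ} (hM : M ≠ 0) {g : CuspForm (Gamma0 M) 2}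
    (hg : g.IsNormalizedEigenform) (N : ℕ) (hMN : M ∣ N) (hsq : Squarefree N) :
    ∃ g' : CuspForm (Gamma0 N) 2, g'.IsNormalizedEigenform ∧
      ∀ ℓ : ℕ, ℓ.Prime → ¬ ℓ ∣ N → qCoeff g' ℓ = qCoeff g ℓ := by
  have key : ∀ (D N : ℕ), N = M * D → Squarefree N →
      ∃ g' : CuspForm (Gamma0 N) 2, g'.IsNormalizedEigenform ∧
        ∀ ℓ : ℕ, ℓ.Prime → ¬ ℓ ∣ N → qCoeff g' ℓ = qCoeff g ℓ := by
    intro D
    induction D using Nat.strong_induction_on with
    | _ D ih =>
      intro N hN hsq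
      by_cases hD1 : D = 1
      · subst hD1
        rw [mul_one] at hN
        subst hN
        exact ⟨g, hg, fun _ _ _ => rfl⟩
      have hN0 : N ≠ 0 := hsq.ne_zero
      have hD0 : D ≠ 0 := by
        rintro rfl
        exact hN0 (by rw [hN, mul_zero])
      have hq : D.minFac.Prime := Nat.minFac_prime hD1
      obtain ⟨D', hD'⟩ := Nat.minFac_dvd D
      set q := D.minFac with hqdef
      have hD'0 : D' ≠ 0 := by
        rintro rfl
        exact hD0 (by rw [hD', mul_zero])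
      have hlt : D' < D := by
        rw [hD']
        exact lt_mul_of_one_lt_left (Nat.pos_of_ne_zero hD'0) hq.one_lt
      have hN' : N = (M * D') * q := by rw [hN, hD']; ring
      have hsq' : Squarefree (M * D') := hsq.squarefree_of_dvd ⟨q, hN'⟩
      obtain ⟨g₁, hg₁, h₁⟩ := ih D' hlt (M * D') rfl hsq'
      have hqn : ¬ q ∣ M * D' := by
        intro hdvd
        have h2 : q * q ∣ N := by rw [hN']; exact Nat.mul_dvd_mul hdvd dvd_rfl
        exact hq.one_lt.ne' (Nat.isUnit_iff.mp (hsq q h2))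
      obtain ⟨g₂, hg₂, h₂⟩ := exists_stab (Nat.mul_ne_zero hM hD'0) hq hqn hg₁
      subst hN'
      refine ⟨g₂, hg₂, fun ℓ hℓ hℓN => ?_⟩
      rw [h₂ ℓ hℓ (fun h => hℓN (h ▸ Dvd.intro_left _ rfl)),
        h₁ ℓ hℓ (fun h => hℓN (Dvd.dvd.mul_right h _))]
  obtain ⟨D, hD⟩ := hMN
  exact key D N hD hsq

end Fermat.Agent.S58
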