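/-
S58, tasks Good-a / Good-b: the eigenvalue of `g` at a good prime `ℓ₀ ∤ M` is `a_{ℓ₀}(W)`, knowing this outside a finite set `S`.

MATH.
Good-a (`eq_zero_of_mem_all`).  `Z̄ := integralClosure ℤ ℂ` is a domain.  Suppose `β ≠ 0`.  `β` is integral over `ℤ`: there is a monic `P ∈ ℤ[X]` with `P(β) = 0`; take `P` of minimal degree (or `minpoly ℤ β`, or divide by `X^k`): then `c₀ := P.coeff 0 ≠ 0`
 (otherwise `P = X * P₁` (`Polynomial.X_dvd_iff`), `β * P₁(β) = 0`, `P₁(β) = 0`, `P₁` monic of smaller degree).  `P = X * divX P + C c₀` (`Polynomial.divX_mul_X_add`) so `(c₀ : Z̄) = - β * (divX P)(β) ∈ 𝔪` for every `𝔪 ∋ β`.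
 Take a prime `lam > max B |c₀|` (`Nat.exists_infinite_primes`), `𝔪 ∋ lam` maximal (`FLTPrelim.exists_maximalIdeal_natCast_prime_mem`).  `lam ∤ c₀`, so `u lam + v c₀ = 1` (`Int.isCoprime_iff_gcd_eq_one`, `Nat.Prime.coprime_iff_not_dvd`...) and `1 ∈ 𝔪`: contradiction.
Good-b (`qCoeff_eq_of_good`).  Fix `A₀` over `ℓ₀` and a Frobenius `φ₀` (`S54.exists_liesOverPrime`, `S54.exists_isFrobeniusAt`).  For a prime `lam > max 2 ℓ₀` and `𝔪 ∋ lam` maximal: `k := Z̄ ⧸ 𝔪` (`Ideal.Quotient.field`), `CharP k lam`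
 (`(lam : k) = 0` + prime: `CharP.ofPrime`-like lemma, e.g. `ringChar`/`CharP.charP_iff_prime_eq_zero`), `φ := Ideal.Quotient.mk 𝔪`;  `h29` gives `ρ̄` attached to `g`;  `ρ := GaloisRepAdic.ofResidualGaloisRep ρ̄` (`T = k`, `maximalIdeal k = ⊥`, so `hsep` is `iInf_le _ 1`-trivial and `hlamT` says `(lam : k) = 0`).
 `S' := insert lam S`.  For `ℓ ∉ S'`: `ℓ ∤ M` (`hMS`), `(ℓ : k) ≠ 0` (`ℓ ≠ lam` primes, `CharP.cast_eq_zero_iff`), attachedness gives `a` with `(a : ℂ) = qCoeff g ℓ = (a_ℓ(W) : ℂ)`, so `a = ((a_ℓ(W) : ℤ) : Z̄)` (`Subtype.ext`) and `φ a = (a_ℓ(W) : k)` (`map_intCast`): this is `hchar`.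
 `charpoly_frobenius_of_good` at `ℓ₀` and attachedness at `ℓ₀` (`a₀`, `(a₀ : ℂ) = qCoeff g ℓ₀`): compare the coefficients of `X`: `φ a₀ = (a_{ℓ₀}(W) : k)`, i.e. `a₀ - a_{ℓ₀}(W) ∈ 𝔪` (`Ideal.Quotient.eq`).
 `a₀` does not depend on `lam` (`Subtype.ext`).  [To have `a₀` at all, apply the above once, e.g. get integrality of `qCoeff g ℓ₀` from one `lam`.]  `eq_zero_of_mem_all` with `B := max 2 ℓ₀`.
-/
import Mathlib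
import Fermat.Agent.S58.Test
import Fermat.Agent.S54.Frobenius

set_option autoImplicit false

namespace Fermat.Agent.S58

open WeierstrassCurve WeierstrassCurve.Affine Polynomial IsLocalRing CongruenceSubgroup
open ModularFormClass
open Fermat.Agent.S31 (Qb GQ)

/-- task Good-a -/
theorem eq_zero_of_mem_all (β : integralClosure ℤ ℂ) (B : ℕ)
    (h : ∀ lam : ℕ, lam.Prime → B < lam → ∀ 𝔪 : Ideal (integralClosure ℤ ℂ), 𝔪.IsMaximal →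
      (lam : integralClosure ℤ ℂ) ∈ 𝔪 → β ∈ 𝔪) : β = 0 := by
  by_contra hβ
  have hne : (Ideal.span {β}).comap (algebraMap ℤ (integralClosure ℤ ℂ)) ≠ ⊥ :=
    Ideal.comap_ne_bot_of_integral_mem hβ (Ideal.mem_span_singleton_self β)
      (Algebra.IsIntegral.isIntegral β)
  obtain ⟨c, hc, hc0⟩ := Submodule.exists_mem_ne_zero_of_ne_bot hne
  rw [Ideal.mem_comap] at hc
  obtain ⟨lam, hlam, hp⟩ := Nat.exists_infinite_primes (max B c.natAbs + 1)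
  have hB : B < lam := by
    have := le_max_left B c.natAbs
    omega
  have hcl : c.natAbs < lam := by
    have := le_max_right B c.natAbs
    omega
  obtain ⟨𝔪, hmax, hmem⟩ := FLTPrelim.exists_maximalIdeal_natCast_prime_mem hp
  have hβm := h lam hp hB 𝔪 hmax hmem
  have hcm : algebraMap ℤ (integralClosure ℤ ℂ) c ∈ 𝔪 :=
    (Ideal.span_singleton_le_iff_mem 𝔪).mpr hβm hc
  have hndvd : ¬ (lam : ℤ) ∣ c := by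
    intro hd
    have h1 : lam ∣ c.natAbs := Int.natCast_dvd.mp hd
    have h2 : 0 < c.natAbs := Int.natAbs_pos.mpr hc0
    exact absurd (Nat.le_of_dvd h2 h1) (by omega)
  have hcop : IsCoprime (lam : ℤ) c :=
    (Nat.prime_iff_prime_int.mp hp).coprime_iff_not_dvd.mpr hndvd
  obtain ⟨u, v, huv⟩ := hcop
  apply hmax.ne_top
  rw [Ideal.eq_top_iff_one]
  have e : (1 : integralClosure ℤ ℂ) = algebraMap ℤ _ u * (lam : integralClosure ℤ ℂ)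
      + algebraMap ℤ _ v * algebraMap ℤ _ c := by
    have := congrArg (algebraMap ℤ (integralClosure ℤ ℂ)) huv
    rw [map_add, map_mul, map_mul, map_one, map_natCast] at this
    exact this.symm
  rw [e]
  exact 𝔪.add_mem (𝔪.mul_mem_left _ hmem) (𝔪.mul_mem_left _ hcm)

/-- one prime `lam`, one maximal ideal. -/
theorem Good_aux (W : WeierstrassCurve ℤ) (hΔ : W.Δ ≠ 0) {M : ℕ}
    {g : CuspForm (Gamma0 M) 2}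
    (h29 : ∀ (p : ℕ) (_ : p.Prime) (k : Type) [Field k] [CharP k p]
      (φ : integralClosure ℤ ℂ →+* k), ∃ ρ : ResidualGaloisRep k, ρ.IsAttachedTo g φ)
    (S : Finset ℕ) (hS : ∀ ℓ : ℕ, ℓ.Prime → (ℓ : ℤ) ∣ W.Δ → ℓ ∈ S)
    (hMS : ∀ ℓ : ℕ, ℓ.Prime → ℓ ∣ M → ℓ ∈ S)
    (hgW : ∀ ℓ : ℕ, ℓ.Prime → ℓ ∉ S → qCoeff g ℓ = (W.apOfModel ℓ : ℂ))
    {ℓ₀ : ℕ} (hℓ₀ : ℓ₀.Prime) (hℓ₀M : ¬ ℓ₀ ∣ M) (hgood : W.IsGoodPrimeFor ℓ₀)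
    {lam : ℕ} (hlam : lam.Prime) (hlam2 : lam ≠ 2) (hne : ℓ₀ ≠ lam)
    (𝔪 : Ideal (integralClosure ℤ ℂ)) (h𝔪 : 𝔪.IsMaximal) (hl𝔪 : (lam : integralClosure ℤ ℂ) ∈ 𝔪) :
    ∃ a₀ : integralClosure ℤ ℂ, (a₀ : ℂ) = qCoeff g ℓ₀ ∧
      a₀ - ((W.apOfModel ℓ₀ : ℤ) : integralClosure ℤ ℂ) ∈ 𝔪 := by
  classical
  obtain ⟨A₀, hA₀⟩ := Fermat.Agent.S54.exists_liesOverPrime ℓ₀ hℓ₀
  obtain ⟨φ₀, hφ₀⟩ := Fermat.Agent.S54.exists_isFrobeniusAt ℓ₀ hℓ₀ A₀ hA₀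
  let _ : Field (integralClosure ℤ ℂ ⧸ 𝔪) := Ideal.Quotient.field 𝔪
  set φ : integralClosure ℤ ℂ →+* (integralClosure ℤ ℂ ⧸ 𝔪) := Ideal.Quotient.mk 𝔪 with hφdef
  have hlam0 : ((lam : ℕ) : integralClosure ℤ ℂ ⧸ 𝔪) = 0 := by
    have : φ (lam : integralClosure ℤ ℂ) = 0 := Ideal.Quotient.eq_zero_iff_mem.mpr hl𝔪
    rwa [map_natCast] at this
  have : CharP (integralClosure ℤ ℂ ⧸ 𝔪) lam := (CharP.charP_iff_prime_eq_zero hlam).mpr hlam0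
  obtain ⟨ρb, hatt⟩ := h29 lam hlam (integralClosure ℤ ℂ ⧸ 𝔪) φ
  have hcast : ∀ ℓ : ℕ, ℓ.Prime → ℓ ≠ lam → ((ℓ : ℕ) : integralClosure ℤ ℂ ⧸ 𝔪) ≠ 0 := by
    intro ℓ hℓ hℓl h0
    rw [CharP.cast_eq_zero_iff (integralClosure ℤ ℂ ⧸ 𝔪) lam] at h0
    exact hℓl ((Nat.prime_dvd_prime_iff_eq hlam hℓ).mp h0).symm
  have hchar : ∀ ℓ : ℕ, ℓ.Prime → ℓ ∉ insert lam S → ∀ A : ValuationSubring Qb,
      A.LiesOverPrime ℓ → ∀ ψ : GQ, A.IsFrobeniusAt ψ ℓ →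
      LinearMap.charpoly ((GaloisRepAdic.ofResidualGaloisRep ρb).ρ ψ) =
        X ^ 2 - C ((W.apOfModel ℓ : ℤ) : integralClosure ℤ ℂ ⧸ 𝔪) * X
          + C ((ℓ : ℕ) : integralClosure ℤ ℂ ⧸ 𝔪) := by
    intro ℓ hℓ hℓS A hA ψ hψ
    rw [Finset.mem_insert, not_or] at hℓS
    obtain ⟨a, ha, hc⟩ := hatt ℓ hℓ (fun h => hℓS.2 (hMS ℓ hℓ h)) (hcast ℓ hℓ hℓS.1) A hA ψ hψ
    have ha' : a = ((W.apOfModel ℓ : ℤ) : integralClosure ℤ ℂ) := by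
      apply Subtype.ext
      rw [ha, hgW ℓ hℓ hℓS.2]
      simp
    have hφa : φ a = ((W.apOfModel ℓ : ℤ) : integralClosure ℤ ℂ ⧸ 𝔪) := by
      rw [ha', map_intCast]
    rw [← hφa]
    exact hc
  have hsep : ⨅ n : ℕ, maximalIdeal (integralClosure ℤ ℂ ⧸ 𝔪) ^ n = ⊥ := by
    refine le_antisymm ?_ bot_le
    refine (iInf_le _ 1).trans ?_
    rw [pow_one, IsLocalRing.maximalIdeal_eq_bot]
  have hlamT : ((lam : ℕ) : integralClosure ℤ ℂ ⧸ 𝔪) ∈ maximalIdeal (integralClosure ℤ ℂ ⧸ 𝔪) := by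
    rw [hlam0]; exact Ideal.zero_mem _
  have h1 := charpoly_frobenius_of_good (GaloisRepAdic.ofResidualGaloisRep ρb) W hΔ hlam hlam2
    (insert lam S) (Finset.mem_insert_self _ _)
    (fun ℓ hℓ hd => Finset.mem_insert_of_mem (hS ℓ hℓ hd)) hchar hsep hlamT hℓ₀ hne hgood A₀ hA₀
    φ₀ hφ₀
  obtain ⟨a₀, ha₀, hc₀⟩ := hatt ℓ₀ hℓ₀ hℓ₀M (hcast ℓ₀ hℓ₀ hne) A₀ hA₀ φ₀ hφ₀
  refine ⟨a₀, ha₀, ?_⟩
  have h2 : (X ^ 2 - C (φ a₀) * X + C ((ℓ₀ : ℕ) : integralClosure ℤ ℂ ⧸ 𝔪) :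
      (integralClosure ℤ ℂ ⧸ 𝔪)[X]) =
      X ^ 2 - C ((W.apOfModel ℓ₀ : ℤ) : integralClosure ℤ ℂ ⧸ 𝔪) * X
        + C ((ℓ₀ : ℕ) : integralClosure ℤ ℂ ⧸ 𝔪) := hc₀.symm.trans h1
  have h3 := congrArg (fun P : (integralClosure ℤ ℂ ⧸ 𝔪)[X] => P.coeff 1) h2
  simp only [coeff_add, coeff_sub, coeff_X_pow, coeff_C_mul, coeff_X_one, coeff_C] at h3
  norm_num at h3
  rw [← Ideal.Quotient.eq_zero_iff_mem, map_sub, map_intCast, sub_eq_zero]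
  exact h3

/-- task Good-b -/
theorem qCoeff_eq_of_good (W : WeierstrassCurve ℤ) (hΔ : W.Δ ≠ 0) {M : ℕ}
    {g : CuspForm (Gamma0 M) 2}
    (h29 : ∀ (p : ℕ) (_ : p.Prime) (k : Type) [Field k] [CharP k p]
      (φ : integralClosure ℤ ℂ →+* k), ∃ ρ : ResidualGaloisRep k, ρ.IsAttachedTo g φ)
    (S : Finset ℕ) (hS : ∀ ℓ : ℕ, ℓ.Prime → (ℓ : ℤ) ∣ W.Δ → ℓ ∈ S)
    (hMS : ∀ ℓ : ℕ, ℓ.Prime → ℓ ∣ M → ℓ ∈ S)
    (hgW : ∀ ℓ : ℕ, ℓ.Prime → ℓ ∉ S → qCoeff g ℓ = (W.apOfModel ℓ : ℂ))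
    {ℓ₀ : ℕ} (hℓ₀ : ℓ₀.Prime) (hℓ₀M : ¬ ℓ₀ ∣ M) (hgood : W.IsGoodPrimeFor ℓ₀) :
    qCoeff g ℓ₀ = (W.apOfModel ℓ₀ : ℂ) := by
  have key : ∀ lam : ℕ, lam.Prime → max 2 ℓ₀ < lam → ∀ 𝔪 : Ideal (integralClosure ℤ ℂ),
      𝔪.IsMaximal → (lam : integralClosure ℤ ℂ) ∈ 𝔪 →
      ∃ a₀ : integralClosure ℤ ℂ, (a₀ : ℂ) = qCoeff g ℓ₀ ∧
        a₀ - ((W.apOfModel ℓ₀ : ℤ) : integralClosure ℤ ℂ) ∈ 𝔪 := by
    intro lam hlam hB 𝔪 h𝔪 hl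
    have h2 : 2 < lam := lt_of_le_of_lt (le_max_left _ _) hB
    have h3 : ℓ₀ < lam := lt_of_le_of_lt (le_max_right _ _) hB
    exact Good_aux W hΔ h29 S hS hMS hgW hℓ₀ hℓ₀M hgood hlam h2.ne' h3.ne 𝔪 h𝔪 hl
  obtain ⟨lam, hlamB, hlam⟩ := Nat.exists_infinite_primes (max 2 ℓ₀ + 1)
  obtain ⟨𝔪, h𝔪, hl⟩ := FLTPrelim.exists_maximalIdeal_natCast_prime_mem hlam
  obtain ⟨a₀, ha₀, -⟩ := key lam hlam (Nat.lt_of_succ_le hlamB) 𝔪 h𝔪 hl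
  have h0 : a₀ - ((W.apOfModel ℓ₀ : ℤ) : integralClosure ℤ ℂ) = 0 := by
    apply eq_zero_of_mem_all _ (max 2 ℓ₀)
    intro lam' hlam' hB' 𝔪' h𝔪' hl'
    obtain ⟨a₁, ha₁, hmem⟩ := key lam' hlam' hB' 𝔪' h𝔪' hl'
    have : a₁ = a₀ := Subtype.ext (ha₁.trans ha₀.symm)
    rwa [this] at hmem
  rw [sub_eq_zero] at h0
  rw [← ha₀, h0]
  simp

end Fermat.Agent.S58
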