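/-
S58, task AS (Mathlib only): an involution `c ≠ 1` of an algebraically closed field `K` of characteristic `0` inverts the roots of unity of odd order
(the elementary part of the Artin-Schreier theorem).

MATH.  `F := {x : c x = x}`, `N x := x * c x ∈ F` (multiplicative).
(1) `c i = -i` for `i² = -1`.  Otherwise `c i = i` (`(c i)² = -1` so `c i = ± i`).  Take `x` with `c x ≠ x`, `y := x - c x ≠ 0`, `c y = -y`, `a := y² ∈ F`.
    Take `z` with `z² = y` (`IsAlgClosed.exists_pow_nat_eq`).  `(N z)² = N y = -y²`.  So `y² = (i * N z)²`, `y = ± i * N z ∈ F`: contradiction with `c y = -y ≠ y`.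
(2) every `x ∈ K` is `u + v i` with `u, v ∈ F`: `u = (x + c x)/2`, `v = (x - c x)/(2i)`; `N (u + v i) = u² + v²`.
(3) a sum of two squares of elements of `F` is a square of an element of `F`: `u² + v² = N (u + v i) = N (w²) = (N w)²` where `w² = u + v i`.  By induction: a finite sum of squares in `F` is a square in `F`.
(4) `-1` is not a square in `F`: `s² = -1` gives `s = ± i ∉ F`.
(5) `r := N ζ = ζ * c ζ ∈ F`, `r ^ p = 1`, `p = 2m + 1`.  If `r ≠ 1` then `∑_{j ≤ 2m} r^j = 0` (`mul_geom_sum` / `geom_sum_mul`).  But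
      `2 * ∑_{j < 2m+1} r^j = 1 + (r^m)² + ∑_{j < m} (r^j + r^(j+1))²`      (induction on `m`),
    so `-1 = (r^m)² + ∑ (...)²` is a sum of squares in `F`, hence a square in `F`: contradiction with (4).  So `ζ * c ζ = 1`.
-/
import Mathlib

set_option autoImplicit false

namespace Fermat.Agent.S58

section
variable {K : Type*} [Field K] [IsAlgClosed K] [CharZero K] (c : K ≃+* K)

theorem AS_apply_I (hc : ∀ x, c (c x) = x) (hc1 : ∃ x, c x ≠ x) (i : K) (hi : i ^ 2 = -1) :
    c i = -i := by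
  have h1 : (c i) ^ 2 = i ^ 2 := by rw [← map_pow, hi, map_neg, map_one]
  rcases sq_eq_sq_iff_eq_or_eq_neg.mp h1 with h | h
  · exfalso
    obtain ⟨x, hx⟩ := hc1
    set y := x - c x with hy
    have hy0 : y ≠ 0 := fun h0 => hx (sub_eq_zero.mp h0).symm
    have hcy : c y = -y := by rw [hy, map_sub, hc]; ring
    obtain ⟨z, hz⟩ := IsAlgClosed.exists_pow_nat_eq y (n := 2) (by norm_num)
    set n := z * c z with hn
    have hcn : c n = n := by rw [hn, map_mul, hc]; ring
    have hn2 : n ^ 2 = - y ^ 2 := by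
      rw [hn, mul_pow, ← map_pow, hz, hcy]; ring
    have h2 : y ^ 2 = (i * n) ^ 2 := by rw [mul_pow, hi, hn2]; ring
    have hfix : c y = y := by
      rcases sq_eq_sq_iff_eq_or_eq_neg.mp h2 with h3 | h3
      · rw [h3, map_mul, h, hcn]
      · rw [h3, map_neg, map_mul, h, hcn]
    rw [hcy] at hfix
    have : (2 : K) * y = 0 := by linear_combination -hfix
    rcases mul_eq_zero.mp this with h4 | h4
    · exact two_ne_zero h4
    · exact hy0 h4
  · exact h

/-- squares of fixed elements -/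
def AS_IsSq (x : K) : Prop := ∃ s, c s = s ∧ s ^ 2 = x

theorem AS_IsSq.add (hc : ∀ x, c (c x) = x) (i : K) (hi : i ^ 2 = -1) (hci : c i = -i) {x y : K}
    (hx : AS_IsSq c x) (hy : AS_IsSq c y) : AS_IsSq c (x + y) := by
  obtain ⟨u, hu, rfl⟩ := hx
  obtain ⟨v, hv, rfl⟩ := hy
  obtain ⟨w, hw⟩ := IsAlgClosed.exists_pow_nat_eq (u + v * i) (n := 2) (by norm_num)
  refine ⟨w * c w, by rw [map_mul, hc]; ring, ?_⟩
  rw [mul_pow, ← map_pow, hw, map_add, map_mul, hu, hv, hci]
  linear_combination (- v ^ 2) * hi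

theorem AS_IsSq.sum (hc : ∀ x, c (c x) = x) (i : K) (hi : i ^ 2 = -1) (hci : c i = -i)
    {ι : Type*} (s : Finset ι) (f : ι → K) (hf : ∀ j ∈ s, AS_IsSq c (f j)) :
    AS_IsSq c (∑ j ∈ s, f j) := by
  classical
  induction s using Finset.induction_on with
  | empty => exact ⟨0, map_zero _, by simp⟩
  | insert a s ha ih =>
    rw [Finset.sum_insert ha]
    exact AS_IsSq.add c hc i hi hci (hf a (Finset.mem_insert_self _ _))
      (ih fun j hj => hf j (Finset.mem_insert_of_mem hj))

omit [IsAlgClosed K] in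
theorem AS_not_isSq (i : K) (hi : i ^ 2 = -1) (hci : c i = -i) : ¬ AS_IsSq c (-1) := by
  rintro ⟨s, hs, hs2⟩
  have hi0 : i ≠ 0 := by
    rintro rfl
    norm_num at hi
  have h2 : (2 : K) * i = 0 := by
    rcases sq_eq_sq_iff_eq_or_eq_neg.mp (hs2.trans hi.symm) with h | h
    · rw [h, hci] at hs
      linear_combination -hs
    · rw [h, map_neg, hci] at hs
      linear_combination hs
  rcases mul_eq_zero.mp h2 with h4 | h4
  · exact two_ne_zero h4
  · exact hi0 h4

omit [IsAlgClosed K] [CharZero K] in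
theorem AS_identity (r : K) (m : ℕ) :
    2 * ∑ j ∈ Finset.range (2 * m + 1), r ^ j
      = 1 + (r ^ m) ^ 2 + ∑ j ∈ Finset.range m, (r ^ j + r ^ (j + 1)) ^ 2 := by
  induction m with
  | zero => simp; norm_num
  | succ m ih =>
    rw [show 2 * (m + 1) + 1 = (2 * m + 1) + 1 + 1 by ring, Finset.sum_range_succ,
      Finset.sum_range_succ, Finset.sum_range_succ _ m, mul_add, mul_add, ih]
    ring

end

theorem involution_apply_root {K : Type*} [Field K] [IsAlgClosed K] [CharZero K] (c : K ≃+* K)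
    (hc : ∀ x, c (c x) = x) (hc1 : ∃ x, c x ≠ x) {p : ℕ} (hp : Odd p) (ζ : K) (hζ : ζ ^ p = 1) :
    c ζ = ζ⁻¹ := by
  obtain ⟨i, hi⟩ := IsAlgClosed.exists_pow_nat_eq (-1 : K) (n := 2) (by norm_num)
  have hci := AS_apply_I c hc hc1 i hi
  obtain ⟨m, rfl⟩ := hp
  set r := ζ * c ζ with hr
  have hcr : c r = r := by rw [hr, map_mul, hc]; ring
  have hrp : r ^ (2 * m + 1) = 1 := by rw [hr, mul_pow, ← map_pow, hζ, map_one, one_mul]
  have hr1 : r = 1 := by
    by_contra hne
    have hsum : ∑ j ∈ Finset.range (2 * m + 1), r ^ j = 0 := by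
      have := mul_geom_sum r (2 * m + 1)
      rw [hrp, sub_self] at this
      rcases mul_eq_zero.mp this with h | h
      · exact absurd (sub_eq_zero.mp h) hne
      · exact h
    have hid := AS_identity r m
    rw [hsum, mul_zero] at hid
    apply AS_not_isSq c i hi hci
    have : (-1 : K) = (r ^ m) ^ 2 + ∑ j ∈ Finset.range m, (r ^ j + r ^ (j + 1)) ^ 2 := by
      linear_combination hid
    rw [this]
    refine AS_IsSq.add c hc i hi hci ⟨r ^ m, by rw [map_pow, hcr], rfl⟩ ?_
    refine AS_IsSq.sum c hc i hi hci _ _ fun j _ => ⟨r ^ j + r ^ (j + 1), ?_, rfl⟩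
    rw [map_add, map_pow, map_pow, hcr]
  exact eq_inv_of_mul_eq_one_right hr1

end Fermat.Agent.S58
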