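/-
S58, tasks LinAlg-a / LinAlg-b (Mathlib only): comparison of two 2-dimensional representations `r : G → GL(E)` over `F` and `ρ : G → GL(V)` over an extension `k` of `F`.

MATH.
LinAlg-a (`charpoly_eq_of_compat`).  `Compat r ρ`: for every `g` there are `t, d ∈ F` with `r(g)² - t r(g) + d = 0` and `charpoly ρ(g) = X² - tX + d`.
 (i) if `r g` is NOT a scalar, its minimal polynomial has degree 2, so `X² - tX + d = charpoly (r g)`
     [elementary: pick `x` with `x, r g x` linearly independent (exists, otherwise `r g` is a scalar: standard); both `X² - tX + d` and `charpoly (r g) = X² - t'X + d'` (Cayley-Hamilton `LinearMap.aeval_self_charpoly`; rank 2 formula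
      `charpoly = X² - trace X + det`: `Fermat.Agent.FD.charpoly_rank_two` in `Fermat/Agent/Lib/FrobDensity/Apps.lean`, or `Matrix.charpoly_fin_two`) kill `r g`; subtract: `(t - t') r g x = (d - d') x`, so `t = t'`, `d = d'`].
 (ii) there is `τ` with `r τ` not a scalar (otherwise every line is stable; `finrank = 2` gives a line `≠ ⊥, ⊤`).
 (iii) if `r g = s • 1`: `s ≠ 0` (`r g` is invertible); `r (g τ) = s • r τ` is not a scalar; by (i) `det ρ(gτ) = det (s • r τ) = s² det (r τ) = s² det ρ(τ)`, so `det ρ(g) = s²` (`det ρ(τ) ≠ 0`); with `(t,d)` for `g`: `d = s²`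
      and `s² - t s + d = 0` so `t = 2s`: `charpoly ρ(g) = X² - 2sX + s² = charpoly (s • 1)`.
LinAlg-b (`irreducible_of_charpoly_eq`).  `t := trace ρ(c)`; Cayley-Hamilton: `ρ(c)² = t ρ(c) + 1`, and `ρ(c)² = 1`, so `t = 0`: `charpoly ρ(c) = X² - 1 = charpoly r(c)` (map is injective).
  Eigenvectors: `e₁, e₂ ∈ E` (`r c e₁ = e₁`, `r c e₂ = -e₂`), `v₁, v₂ ∈ V`: bases (distinct eigenvalues, `2 ≠ 0`).  [e.g. `e₁ := x + r c x`, `e₂ := x - r c x` for suitable `x`; `r c ≠ ± 1` because of the trace/determinant.]
  Matrices `r g = [[a,b],[c',d]]`, `ρ g = [[A,B],[C,D]]`.  Traces of `g` and `c g`: `a + d = A + D`, `a - d = A - D`, so `A = a`, `D = d` (in `k`).  From `a(gh) = a(g)a(h) + b(g)c'(h)`: `B(g) C(h) = b(g) c'(h)`.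
  `r` irreducible: some `b(g) ≠ 0` (else `span e₂` is stable) and some `c'(h) ≠ 0` (else `span e₁` is stable).  So `B(g) ≠ 0`, `C(h) ≠ 0`.
  `L ≠ ⊥` stable, `0 ≠ x = αv₁ + βv₂ ∈ L`: `x ± ρ(c) x ∈ L` so `v₁ ∈ L` or `v₂ ∈ L`; `ρ(h) v₁ = A v₁ + C(h) v₂`, `ρ(g) v₂ = B(g) v₁ + D v₂`: both `v₁, v₂ ∈ L`, `L = ⊤`.
-/
import Mathlib

set_option autoImplicit false

namespace Fermat.Agent.S58

open Polynomial

section Helpers

variable {K : Type*} [Field K] {W : Type*} [AddCommGroup W] [Module K W] [Module.Finite K W]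

theorem LinAlg_charpoly_two (hW : Module.finrank K W = 2) (f : Module.End K W) :
    LinearMap.charpoly f = X ^ 2 - C (LinearMap.trace K W f) * X + C (LinearMap.det f) := by
  let b := Module.finBasisOfFinrankEq K W hW
  rw [← LinearMap.charpoly_toMatrix f b, Matrix.charpoly_fin_two,
    LinearMap.trace_eq_matrix_trace K b, ← LinearMap.det_toMatrix b]

theorem LinAlg_CH (hW : Module.finrank K W = 2) (f : Module.End K W) :
    f * f - LinearMap.trace K W f • f + LinearMap.det f • (1 : Module.End K W) = 0 := by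
  have h := LinearMap.aeval_self_charpoly f
  rw [LinAlg_charpoly_two hW f] at h
  simpa [pow_two, Algebra.algebraMap_eq_smul_one] using h

theorem LinAlg_quad_inj {t d t' d' : K}
    (h : (X : K[X]) ^ 2 - C t * X + C d = X ^ 2 - C t' * X + C d') : t = t' ∧ d = d' := by
  have h1 := congrArg (fun p : K[X] => p.coeff 1) h
  have h0 := congrArg (fun p : K[X] => p.coeff 0) h
  simp [Polynomial.coeff_X_pow, Polynomial.coeff_C, Polynomial.coeff_X] at h1 h0
  exact ⟨h1, h0⟩

omit [Module.Finite K W] in
theorem LinAlg_unique [Nontrivial W] {f : Module.End K W} (hf : ∀ s : K, f ≠ s • 1)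
    {t d t' d' : K} (h : f * f - t • f + d • (1 : Module.End K W) = 0)
    (h' : f * f - t' • f + d' • (1 : Module.End K W) = 0) : t = t' ∧ d = d' := by
  have h1 : (t' - t) • f = (d' - d) • (1 : Module.End K W) := by
    have e : (t' - t) • f - (d' - d) • (1 : Module.End K W)
        = (f * f - t • f + d • (1 : Module.End K W)) - (f * f - t' • f + d' • (1 : Module.End K W)) := by
      simp only [sub_smul]
      abel
    rw [h, h', sub_zero] at e
    exact sub_eq_zero.mp e
  have ht : t = t' := by
    by_contra hne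
    have hne' : t' - t ≠ 0 := sub_ne_zero.mpr (Ne.symm hne)
    apply hf ((t' - t)⁻¹ * (d' - d))
    rw [mul_smul, ← h1, smul_smul, inv_mul_cancel₀ hne', one_smul]
  refine ⟨ht, ?_⟩
  rw [ht, sub_self, zero_smul] at h1
  obtain ⟨x, hx⟩ := exists_ne (0 : W)
  have h2 := congrArg (fun φ : Module.End K W => φ x) h1
  simp only [LinearMap.zero_apply, LinearMap.smul_apply, Module.End.one_apply] at h2
  rcases smul_eq_zero.mp h2.symm with h3 | h3
  · exact (sub_eq_zero.mp h3).symm
  · exact absurd h3 hx

omit [Module.Finite K W] in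
theorem LinAlg_span_ne_top (hW : Module.finrank K W = 2) {x : W} (hx : x ≠ 0) :
    (K ∙ x) ≠ ⊤ := by
  intro h
  have h1 := finrank_span_singleton (K := K) hx
  rw [h, finrank_top, hW] at h1
  norm_num at h1

omit [Module.Finite K W] in
theorem LinAlg_stable_span {f : Module.End K W} {e : W} {a : K} (h : f e = a • e) :
    ∀ x ∈ (K ∙ e), f x ∈ (K ∙ e) := by
  intro x hx
  obtain ⟨c, rfl⟩ := Submodule.mem_span_singleton.mp hx
  rw [map_smul, h]
  exact Submodule.smul_mem _ _ (Submodule.smul_mem _ _ (Submodule.mem_span_singleton_self e))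

theorem LinAlg_eigen (hW : Module.finrank K W = 2) (f : Module.End K W) {v : W} (hv : v ≠ 0)
    {x : K} (hx : f v = x • v) :
    x * x - LinearMap.trace K W f * x + LinearMap.det f = 0 := by
  have h := congrArg (fun φ : Module.End K W => φ v) (LinAlg_CH hW f)
  simp only [LinearMap.add_apply, LinearMap.sub_apply, Module.End.mul_apply, LinearMap.smul_apply,
    Module.End.one_apply, LinearMap.zero_apply, hx, map_smul, smul_smul, ← sub_smul,
    ← add_smul] at h
  exact (smul_eq_zero.mp h).resolve_right hv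

theorem LinAlg_eigenbasis (h2 : (2 : K) ≠ 0) (hW : Module.finrank K W = 2) (f : Module.End K W)
    (hf : f * f = 1) (hdet : LinearMap.det f = -1) :
    ∃ b : Module.Basis (Fin 2) K W, f (b 0) = b 0 ∧ f (b 1) = - b 1 := by
  have hne : (1 : K) ≠ -1 := by
    intro h
    apply h2
    linear_combination h
  have hff : ∀ x, f (f x) = x := fun x => by
    have := congrArg (fun φ : Module.End K W => φ x) hf
    simpa using this
  have hne1 : f ≠ 1 := by
    rintro rfl
    rw [map_one] at hdet
    exact hne hdet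
  have hne2 : f ≠ -1 := by
    rintro rfl
    have e : (-1 : Module.End K W) = (-1 : K) • (1 : Module.End K W) := by simp
    rw [e, LinearMap.det_smul, hW, map_one] at hdet
    norm_num at hdet
    exact hne hdet
  obtain ⟨x, hx⟩ : ∃ x, x + f x ≠ 0 := by
    by_contra hcon
    simp only [not_exists, not_not] at hcon
    apply hne2
    ext x
    have := hcon x
    simp only [LinearMap.neg_apply, Module.End.one_apply]
    exact eq_neg_of_add_eq_zero_right this
  obtain ⟨y, hy⟩ : ∃ y, y - f y ≠ 0 := by
    by_contra hcon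
    simp only [not_exists, not_not] at hcon
    apply hne1
    ext x
    have := hcon x
    simp only [Module.End.one_apply]
    exact (sub_eq_zero.mp this).symm
  have he1 : f (x + f x) = x + f x := by rw [map_add, hff, add_comm]
  have he2 : f (y - f y) = -(y - f y) := by rw [map_sub, hff, neg_sub]
  have hli : LinearIndependent K ![x + f x, y - f y] := by
    rw [LinearIndependent.pair_iff]
    intro s t hst
    have h1 := congrArg f hst
    rw [map_add, map_smul, map_smul, he1, he2, map_zero, smul_neg] at h1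
    have h3 : (2 * s) • (x + f x) = 0 := by
      have : (2 * s) • (x + f x) = (s • (x + f x) + t • (y - f y))
          + (s • (x + f x) + -(t • (y - f y))) := by
        rw [mul_smul, two_smul]
        abel
      rw [this, hst, h1, add_zero]
    have h4 : (2 * t) • (y - f y) = 0 := by
      have : (2 * t) • (y - f y) = (s • (x + f x) + t • (y - f y))
          - (s • (x + f x) + -(t • (y - f y))) := by
        rw [mul_smul, two_smul]
        abel
      rw [this, hst, h1, sub_zero]
    refine ⟨?_, ?_⟩
    · exact (mul_eq_zero.mp ((smul_eq_zero.mp h3).resolve_right hx)).resolve_left h2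
    · exact (mul_eq_zero.mp ((smul_eq_zero.mp h4).resolve_right hy)).resolve_left h2
  refine ⟨basisOfLinearIndependentOfCardEqFinrank hli (by simp [hW]), ?_, ?_⟩
  · simpa using he1
  · simpa using he2

omit [AddCommGroup W] [Module K W] [Module.Finite K W] in
theorem LinAlg_matrix_T (A B : Matrix (Fin 2) (Fin 2) K) :
    (A * B).trace - (A * !![1, 0; 0, -1] * B).trace + (!![1, 0; 0, -1] * A * B).trace
      - (!![1, 0; 0, -1] * A * !![1, 0; 0, -1] * B).trace = 4 * (A 0 1 * B 1 0) := by
  rw [Matrix.eta_fin_two A, Matrix.eta_fin_two B]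
  simp only [Matrix.mul_fin_two, Matrix.trace_fin_two_of]
  simp
  ring

end Helpers

variable {G : Type*} [Group G] {F k : Type*} [Field F] [Field k] [Algebra F k]
  {E : Type*} [AddCommGroup E] [Module F E] [Module.Finite F E]
  {V : Type*} [AddCommGroup V] [Module k V] [Module.Finite k V]

/-- for every `g`, `r g` is killed by the characteristic polynomial of `ρ g`, which has coefficients in `F`. -/
def Compat (r : G →* Module.End F E) (ρ : G →* Module.End k V) : Prop :=
  ∀ g : G, ∃ t d : F, r g * r g - t • r g + d • (1 : Module.End F E) = 0 ∧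
    LinearMap.charpoly (ρ g) = X ^ 2 - C (algebraMap F k t) * X + C (algebraMap F k d)

/-- task LinAlg-a -/
theorem charpoly_eq_of_compat (hE : Module.finrank F E = 2) (hV : Module.finrank k V = 2)
    (r : G →* Module.End F E) (ρ : G →* Module.End k V)
    (hirr : ∀ L : Submodule F E, (∀ g : G, ∀ x ∈ L, r g x ∈ L) → L = ⊥ ∨ L = ⊤)
    (h : Compat r ρ) (g : G) :
    LinearMap.charpoly (ρ g) = (LinearMap.charpoly (r g)).map (algebraMap F k) := by
  have hEn : Nontrivial E := Module.nontrivial_of_finrank_pos (R := F) (by rw [hE]; norm_num)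
  have hinj := (algebraMap F k).injective
  have hi : ∀ g : G, (∀ s : F, r g ≠ s • 1) → ∀ t d : F,
      r g * r g - t • r g + d • (1 : Module.End F E) = 0 →
      t = LinearMap.trace F E (r g) ∧ d = LinearMap.det (r g) :=
    fun g hg t d htd => LinAlg_unique hg htd (LinAlg_CH hE (r g))
  have hdetρ : ∀ (g : G) (t d : F),
      LinearMap.charpoly (ρ g) = X ^ 2 - C (algebraMap F k t) * X + C (algebraMap F k d) →
      LinearMap.det (ρ g) = algebraMap F k d := by
    intro g t d hcp
    rw [LinAlg_charpoly_two hV (ρ g)] at hcp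
    exact (LinAlg_quad_inj hcp).2
  obtain ⟨τ, hτ⟩ : ∃ τ, ∀ s : F, r τ ≠ s • 1 := by
    by_contra hcon
    simp only [not_exists, not_forall, not_not] at hcon
    obtain ⟨x, hx⟩ := exists_ne (0 : E)
    rcases hirr (F ∙ x) (fun g => by
      obtain ⟨s, hs⟩ := hcon g
      exact LinAlg_stable_span (a := s) (by rw [hs]; simp)) with h0 | h1
    · exact hx (Submodule.span_singleton_eq_bot.1 h0)
    · exact LinAlg_span_ne_top hE hx h1
  obtain ⟨t, d, htd, hcp⟩ := h g
  suffices hs : t = LinearMap.trace F E (r g) ∧ d = LinearMap.det (r g) by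
    rw [hcp, LinAlg_charpoly_two hE (r g), hs.1, hs.2]
    simp
  by_cases hg : ∀ s : F, r g ≠ s • 1
  · exact hi g hg t d htd
  · simp only [not_forall, not_not] at hg
    obtain ⟨s, hs⟩ := hg
    have hs0 : s ≠ 0 := by
      rintro rfl
      have h1 : r g * r g⁻¹ = 1 := by rw [← map_mul, mul_inv_cancel, map_one]
      rw [hs, zero_smul, zero_mul] at h1
      exact zero_ne_one h1
    have hgτ : r (g * τ) = s • r τ := by rw [map_mul, hs, smul_mul_assoc, one_mul]
    have hgτ' : ∀ s' : F, r (g * τ) ≠ s' • 1 := by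
      intro s' hs'
      apply hτ (s⁻¹ * s')
      rw [mul_smul, ← hs', hgτ, smul_smul, inv_mul_cancel₀ hs0, one_smul]
    obtain ⟨t₁, d₁, h₁, hcp₁⟩ := h (g * τ)
    obtain ⟨t₂, d₂, h₂, hcp₂⟩ := h τ
    have e1 : d₁ = s ^ 2 * d₂ := by
      rw [(hi _ hgτ' t₁ d₁ h₁).2, (hi _ hτ t₂ d₂ h₂).2, hgτ, LinearMap.det_smul, hE]
    have e2 : algebraMap F k d₁ = algebraMap F k d * algebraMap F k d₂ := by
      rw [← hdetρ _ _ _ hcp₁, ← hdetρ _ _ _ hcp, ← hdetρ _ _ _ hcp₂, map_mul, map_mul]
    have hd₂ : d₂ ≠ 0 := by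
      rintro rfl
      have h1 : LinearMap.det (ρ τ) * LinearMap.det (ρ τ⁻¹) = 1 := by
        rw [← map_mul, ← map_mul, mul_inv_cancel, map_one, map_one]
      rw [hdetρ _ _ _ hcp₂, map_zero, zero_mul] at h1
      exact zero_ne_one h1
    have hd : d = s ^ 2 := by
      rw [← map_mul] at e2
      have := hinj e2
      rw [e1] at this
      exact (mul_right_cancel₀ hd₂ this).symm
    have hq : s * s - t * s + d = 0 := by
      rw [hs] at htd
      have e : (s • (1 : Module.End F E)) * (s • (1 : Module.End F E)) - t • s • (1 : Module.End F E)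
          + d • (1 : Module.End F E) = (s * s - t * s + d) • (1 : Module.End F E) := by
        rw [smul_mul_smul_comm, one_mul, smul_smul, add_smul, sub_smul]
      rw [e] at htd
      obtain ⟨x, hx⟩ := exists_ne (0 : E)
      have h2 := congrArg (fun φ : Module.End F E => φ x) htd
      simp only [LinearMap.zero_apply, LinearMap.smul_apply, Module.End.one_apply] at h2
      exact (smul_eq_zero.mp h2).resolve_right hx
    have ht : t = 2 * s := by
      have : s * (2 * s - t) = 0 := by rw [hd] at hq; linear_combination hq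
      have := (mul_eq_zero.mp this).resolve_left hs0
      linear_combination -this
    refine ⟨?_, ?_⟩
    · rw [hs, map_smul, LinearMap.trace_one, hE, ht]
      simp [mul_comm]
    · rw [hs, LinearMap.det_smul, hE, map_one, mul_one, hd]

/-- task LinAlg-b -/
theorem irreducible_of_charpoly_eq (h2 : (2 : F) ≠ 0) (hE : Module.finrank F E = 2)
    (hV : Module.finrank k V = 2) (r : G →* Module.End F E) (ρ : G →* Module.End k V)
    (hirr : ∀ L : Submodule F E, (∀ g : G, ∀ x ∈ L, r g x ∈ L) → L = ⊥ ∨ L = ⊤)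
    (hcp : ∀ g : G, LinearMap.charpoly (ρ g) = (LinearMap.charpoly (r g)).map (algebraMap F k))
    (c : G) (hc : c * c = 1) (hdet : LinearMap.det (ρ c) = -1)
    (L : Submodule k V) (hL : ∀ g : G, ∀ x ∈ L, ρ g x ∈ L) : L = ⊥ ∨ L = ⊤ := by
  have hinj := (algebraMap F k).injective
  have htd : ∀ g : G, LinearMap.trace k V (ρ g) = algebraMap F k (LinearMap.trace F E (r g)) ∧
      LinearMap.det (ρ g) = algebraMap F k (LinearMap.det (r g)) := by
    intro g
    have h := hcp g
    rw [LinAlg_charpoly_two hV, LinAlg_charpoly_two hE] at h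
    simp only [Polynomial.map_add, Polynomial.map_sub, Polynomial.map_mul, Polynomial.map_pow,
      Polynomial.map_X, Polynomial.map_C] at h
    exact LinAlg_quad_inj h
  by_contra hcon
  rw [not_or] at hcon
  obtain ⟨hbot, htop⟩ := hcon
  -- the two characters
  have hL1 : Module.finrank k L = 1 := by
    have h0 : 1 ≤ Module.finrank k L := Submodule.one_le_finrank_iff.mpr hbot
    have h3 : Module.finrank k L < 2 := hV ▸ Submodule.finrank_lt htop
    omega
  obtain ⟨v, hv0, hv⟩ := finrank_eq_one_iff'.1 hL1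
  have hv0' : (v : V) ≠ 0 := fun h => hv0 (Subtype.ext h)
  have hχ' : ∀ g : G, ∃ x : k, ρ g v = x • (v : V) := by
    intro g
    obtain ⟨x, hx⟩ := hv ⟨ρ g v, hL g v v.2⟩
    exact ⟨x, (congrArg Subtype.val hx).symm⟩
  choose χ hχ using hχ'
  have hχmul : ∀ g h : G, χ (g * h) = χ g * χ h := by
    intro g h
    have h1 : ρ (g * h) v = (χ g * χ h) • (v : V) := by
      rw [map_mul, Module.End.mul_apply, hχ h, map_smul, hχ g, smul_smul, mul_comm]
    rw [hχ (g * h)] at h1
    exact smul_left_injective k hv0' h1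
  have hχ1 : χ 1 = 1 := by
    have h1 : ρ 1 v = (1 : k) • (v : V) := by rw [map_one, one_smul]; rfl
    rw [hχ 1] at h1
    exact smul_left_injective k hv0' h1
  have hχ0 : ∀ g, χ g ≠ 0 := by
    intro g h0
    have := hχmul g g⁻¹
    rw [mul_inv_cancel, hχ1, h0, zero_mul] at this
    exact one_ne_zero this
  have htr : ∀ g, LinearMap.trace k V (ρ g) = χ g + LinearMap.det (ρ g) / χ g := by
    intro g
    have h := LinAlg_eigen hV (ρ g) hv0' (hχ g)
    have h0 := hχ0 g
    field_simp
    linear_combination -h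
  have hχc : χ c * χ c = 1 := by rw [← hχmul, hc, hχ1]
  have hT : ∀ g h : G, LinearMap.trace k V (ρ (g * h)) - LinearMap.trace k V (ρ (g * c * h))
      + LinearMap.trace k V (ρ (c * g * h)) - LinearMap.trace k V (ρ (c * g * c * h)) = 0 := by
    intro g h
    have e1 : LinearMap.trace k V (ρ (g * c * h)) = LinearMap.trace k V (ρ (c * g * h)) := by
      rw [htr, htr]
      simp only [hχmul, map_mul]
      rw [mul_comm (χ g) (χ c), mul_comm (LinearMap.det (ρ g)) (LinearMap.det (ρ c))]
    have e2 : LinearMap.trace k V (ρ (c * g * c * h)) = LinearMap.trace k V (ρ (g * h)) := by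
      rw [htr, htr]
      simp only [hχmul, map_mul, hdet]
      have e3 : χ c * χ g * χ c * χ h = χ g * χ h := by
        linear_combination (χ g * χ h) * hχc
      rw [e3]
      ring
    rw [e1, e2]
    ring
  have hTr : ∀ g h : G, LinearMap.trace F E (r (g * h)) - LinearMap.trace F E (r (g * c * h))
      + LinearMap.trace F E (r (c * g * h)) - LinearMap.trace F E (r (c * g * c * h)) = 0 := by
    intro g h
    apply hinj
    rw [map_zero, map_sub, map_add, map_sub, ← (htd _).1, ← (htd _).1, ← (htd _).1, ← (htd _).1]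
    exact hT g h
  -- matrices
  have hrc2 : r c * r c = 1 := by rw [← map_mul, hc, map_one]
  have hdetr : LinearMap.det (r c) = -1 := by
    apply hinj
    rw [← (htd c).2, hdet, map_neg, map_one]
  obtain ⟨b, hb0, hb1⟩ := LinAlg_eigenbasis h2 hE (r c) hrc2 hdetr
  let Mx : G → Matrix (Fin 2) (Fin 2) F := fun g => LinearMap.toMatrix b b (r g)
  have hMmul : ∀ g h, Mx (g * h) = Mx g * Mx h := fun g h => by
    simp only [Mx, map_mul, LinearMap.toMatrix_mul]
  have hMc : Mx c = !![1, 0; 0, -1] := by
    ext i j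
    fin_cases i <;> fin_cases j <;> simp [Mx, LinearMap.toMatrix_apply, hb0, hb1]
  have hMtr : ∀ g, LinearMap.trace F E (r g) = (Mx g).trace :=
    fun g => LinearMap.trace_eq_matrix_trace F b (r g)
  have key : ∀ g h, Mx g 0 1 * Mx h 1 0 = 0 := by
    intro g h
    have h1 := hTr g h
    rw [hMtr, hMtr, hMtr, hMtr] at h1
    simp only [hMmul, hMc] at h1
    rw [LinAlg_matrix_T] at h1
    have h4 : (4 : F) ≠ 0 := by
      have : (4 : F) = 2 * 2 := by norm_num
      rw [this]
      exact mul_ne_zero h2 h2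
    exact (mul_eq_zero.mp h1).resolve_left h4
  have hcol : ∀ (g : G) (j : Fin 2), r g (b j) = Mx g 0 j • b 0 + Mx g 1 j • b 1 := by
    intro g j
    have := b.sum_repr (r g (b j))
    rw [Fin.sum_univ_two] at this
    rw [← this]
    simp [Mx, LinearMap.toMatrix_apply]
  by_cases hall : ∀ g, Mx g 0 1 = 0
  · rcases hirr (F ∙ b 1) (fun g => LinAlg_stable_span (a := Mx g 1 1) (by
      rw [hcol g 1, hall g, zero_smul, zero_add])) with h0 | h1
    · exact b.ne_zero 1 (Submodule.span_singleton_eq_bot.1 h0)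
    · exact LinAlg_span_ne_top hE (b.ne_zero 1) h1
  · simp only [not_forall] at hall
    obtain ⟨g0, hg0⟩ := hall
    have hall' : ∀ h, Mx h 1 0 = 0 := fun h => (mul_eq_zero.mp (key g0 h)).resolve_left hg0
    rcases hirr (F ∙ b 0) (fun g => LinAlg_stable_span (a := Mx g 0 0) (by
      rw [hcol g 0, hall' g, zero_smul, add_zero])) with h0 | h1
    · exact b.ne_zero 0 (Submodule.span_singleton_eq_bot.1 h0)
    · exact LinAlg_span_ne_top hE (b.ne_zero 0) h1

end Fermat.Agent.S58
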