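/-
S58, task Hres: if `E[p]` is irreducible (`p` odd), every `ρ` with the Frobenius characteristic polynomials of `E` outside `S` is residually absolutely irreducible and odd.

MATH.  `k := ResidueField T` has characteristic `p` (`hpT`), `k' := AlgebraicClosure k`; `letI : Algebra (ZMod p) k' := ZMod.algebra k' p` (needs `CharP k' p`: `(p : k') = 0` and `p` prime: `CharP.ofPrime...`/`charP_of_prime_pow_injective`/
`CharP.of_ringHom...`: e.g. `ringChar.of_eq`, or `(CharP.exists k')` + `p ∣`-argument).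
`r := WeierstrassCurve.Affine.Point.galoisRepModuleEnd (K := Qb) ℚ (EQ W) p : GQ →* Module.End (ZMod p) (Tor W p)`, `ρ' := (ρ.residual.baseChange k').ρ`.
 * `finrank (ZMod p) (Tor W p) = 2` from `card_tor` (see the Prelude `WeierstrassCurve.residualGaloisRepOf` for the 4-line proof), `Module.Finite` from `finite_tor`.
 * `Compat r ρ'`: `exists_rel ρ W hΔ hp hp2 S hpS hS hchar g` gives `t d : ℤ`; use `((t : ZMod p), (d : ZMod p))`.  `QuadRel` gives the relation on `Tor W p` (the `ZMod p`-action of `(t : ZMod p)` is the `ℤ`-action of `t`: `ZMod.intCast_smul`/`Int.cast_smul_eq_zsmul`).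
   `charpoly (f.baseChange _) = (charpoly f).map _` (`LinearMap.charpoly_baseChange`) twice, `charpoly (ρ.ρ g) = X² - trace X + det` (`Fermat.Agent.FD.charpoly_rank_two ρ.finrank_eq`), `residue (trace) = (t : k)` because `trace - t ∈ 𝔪` (`IsLocalRing.residue_eq_zero_iff`).
 * irreducibility hypothesis of `LinAlg`: `hirr.2` (`IsGaloisStable`, unfold).
 * ODD: `c * c = 1`, `c ≠ 1`; `(t, d)` from `exists_rel` for `c`; `ζ` a primitive `p`-th root of unity in `Qb`; `c ζ = ζ ^ e`, `e ≡ d`; `involution_apply_root c.toRingEquiv ...` gives `c ζ = ζ⁻¹`, so `ζ^(e+1) = 1`, `p ∣ e + 1`, `(d : k) = -1`;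
   `det (ρ.residual.ρ c) = residue (det (ρ.ρ c))` (`LinearMap.det_baseChange`) `= (d : k) = -1`.
 * ABS. IRREDUCIBLE: `c := complexConjugation` (Prelude `Def_GaloisRep_ComplexConjugation`; `complexConjugation_mul_self`; it is `≠ 1`, or use directly `Fermat.Agent.ES.D.complexConjugation_rootOfUnity` from `Fermat/Agent/ES/D/Adic/Conj.lean` instead of `involution_apply_root`),
   `det (ρ' c) = -1` as above; `charpoly_eq_of_compat` then `irreducible_of_charpoly_eq` (with `F = ZMod p`, `k = k'`).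
-/
import Mathlib
import Fermat.Agent.S58.Test
import Fermat.Agent.S58.AS
import Fermat.Agent.S58.LinAlg
import Fermat.Agent.ES.D.Adic.Conj

set_option autoImplicit false

namespace Fermat.Agent.S58

open WeierstrassCurve WeierstrassCurve.Affine Polynomial IsLocalRing
open Fermat.Agent.S31 (Qb GQ)
open scoped TensorProduct

section

variable {T : Type} [CommRing T] [IsLocalRing T] (ρ : GaloisRepAdic T)

lemma Hres_residue_eq {a b : T} (h : a - b ∈ maximalIdeal T) : residue T a = residue T b := by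
  rw [← sub_eq_zero, ← map_sub]
  exact (residue_eq_zero_iff _).2 h

lemma Hres_charpoly_residual (g : GQ) (t d : ℤ)
    (ht : LinearMap.trace T ρ.V (ρ.ρ g) - (t : T) ∈ maximalIdeal T)
    (hd : LinearMap.det (ρ.ρ g) - (d : T) ∈ maximalIdeal T) :
    LinearMap.charpoly (ρ.residual.ρ g) =
      X ^ 2 - C ((t : ℤ) : ResidueField T) * X + C ((d : ℤ) : ResidueField T) := by
  show LinearMap.charpoly ((ρ.ρ g).baseChange (ResidueField T)) = _
  rw [LinearMap.charpoly_baseChange, FD.charpoly_rank_two ρ.finrank_eq]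
  simp only [Polynomial.map_add, Polynomial.map_sub, Polynomial.map_mul, Polynomial.map_pow,
    Polynomial.map_X, Polynomial.map_C, ResidueField.algebraMap_eq, Hres_residue_eq ht,
    Hres_residue_eq hd, map_intCast]

lemma Hres_det_residual (g : GQ) (d : ℤ)
    (hd : LinearMap.det (ρ.ρ g) - (d : T) ∈ maximalIdeal T) :
    LinearMap.det (ρ.residual.ρ g) = ((d : ℤ) : ResidueField T) := by
  show LinearMap.det ((ρ.ρ g).baseChange (ResidueField T)) = _
  rw [LinearMap.det_baseChange, ResidueField.algebraMap_eq, Hres_residue_eq hd, map_intCast]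

end

/-- if `c ζ = ζ⁻¹ = ζ ^ e` for a primitive `p`-th root of unity and `e ≡ d mod p` then `d = -1` in characteristic `p`. -/
lemma Hres_cast_eq_neg_one {p : ℕ} (hp : p.Prime) (k : Type) [Field k] (hpk : (p : k) = 0)
    (c : GQ) (d : ℤ) (hinv : ∀ ζ : Qb, ζ ^ p = 1 → c ζ = ζ⁻¹)
    (hcyc : ∀ ζ : Qb, ζ ^ p = 1 → ∃ e : ℕ, c ζ = ζ ^ e ∧ (e : ℤ) ≡ d [ZMOD (p : ℕ)]) :
    (d : k) = -1 := by
  have : NeZero p := ⟨hp.ne_zero⟩
  obtain ⟨ζ, hζ⟩ := HasEnoughRootsOfUnity.exists_primitiveRoot Qb p
  obtain ⟨e, he, hed⟩ := hcyc ζ hζ.pow_eq_one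
  rw [hinv ζ hζ.pow_eq_one] at he
  have hζ0 : ζ ≠ 0 := hζ.ne_zero hp.ne_zero
  have h1 : ζ ^ (e + 1) = 1 := by
    rw [pow_succ, ← he, inv_mul_cancel₀ hζ0]
  have h2 : p ∣ e + 1 := hζ.dvd_of_pow_eq_one _ h1
  have h3 : (p : ℤ) ∣ d + 1 := by
    have h4 : (p : ℤ) ∣ (e : ℤ) + 1 := by exact_mod_cast h2
    have h5 : (p : ℤ) ∣ d - e := hed.dvd
    have : d + 1 = (d - e) + (e + 1) := by ring
    rw [this]
    exact dvd_add h5 h4
  obtain ⟨m, hm⟩ := h3
  have : ((d + 1 : ℤ) : k) = 0 := by
    rw [hm]; push_cast; rw [hpk, zero_mul]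
  push_cast at this
  exact eq_neg_of_add_eq_zero_left this

lemma Hres_finrank_tor (W : WeierstrassCurve ℤ) (hΔ : W.Δ ≠ 0) (p : ℕ) [Fact p.Prime] :
    Module.finrank (ZMod p) (Tor W p) = 2 := by
  have hp : p.Prime := Fact.out
  have : Finite (Tor W p) := finite_tor W hΔ p hp.pos
  have h := Module.natCard_eq_pow_finrank (K := ZMod p) (V := Tor W p)
  rw [card_tor W hΔ p hp.pos, Nat.card_zmod] at h
  exact (Nat.pow_right_injective hp.two_le h).symm

/-- the quadratic relation as an identity of endomorphisms of `E[p]`. -/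
lemma Hres_rel (W : WeierstrassCurve ℤ) (p : ℕ) (g : GQ) (t d : ℤ) (h : QuadRel W p g t d) :
    Point.galoisRepModuleEnd (K := Qb) ℚ (EQ W) p g * Point.galoisRepModuleEnd (K := Qb) ℚ (EQ W) p g
      - (t : ZMod p) • Point.galoisRepModuleEnd (K := Qb) ℚ (EQ W) p g
      + (d : ZMod p) • (1 : Module.End (ZMod p) (Tor W p)) = 0 := by
  ext x : 1
  have hx : p • (x : Pts W) = 0 := by
    have := x.2
    rw [Submodule.mem_torsionBy_iff, natCast_zsmul] at this
    exact this
  have h1 := h x hx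
  simp only [LinearMap.add_apply, LinearMap.sub_apply, Module.End.mul_apply, LinearMap.smul_apply,
    Point.galoisRepModuleEnd_apply, Module.End.one_apply, LinearMap.zero_apply,
    Int.cast_smul_eq_zsmul]
  apply Subtype.ext
  exact h1

theorem residual_absIrr_and_odd (W : WeierstrassCurve ℤ) (hΔ : W.Δ ≠ 0) {p : ℕ} (hp : p.Prime)
    (hp2 : p ≠ 2) (hirr : W.ModRepIsIrreducible p) (S : Finset ℕ) (hpS : p ∈ S)
    (hS : ∀ ℓ : ℕ, ℓ.Prime → (ℓ : ℤ) ∣ W.Δ → ℓ ∈ S)
    {T : Type} [CommRing T] [IsLocalRing T] (hpT : (p : T) ∈ maximalIdeal T) (ρ : GaloisRepAdic T)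
    (hchar : ∀ ℓ : ℕ, ℓ.Prime → ℓ ∉ S → ∀ A : ValuationSubring Qb, A.LiesOverPrime ℓ →
      ∀ φ : GQ, A.IsFrobeniusAt φ ℓ →
        LinearMap.charpoly (ρ.ρ φ) = X ^ 2 - C ((W.apOfModel ℓ : ℤ) : T) * X + C ((ℓ : ℕ) : T)) :
    ρ.residual.IsAbsolutelyIrreducible ∧ ρ.residual.IsOdd := by
  have : Fact p.Prime := ⟨hp⟩
  have hpk : (p : ResidueField T) = 0 := by
    have := (residue_eq_zero_iff _).2 hpT
    rwa [map_natCast] at this
  -- determinant of an element inverting the `p`-th roots of unity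
  have hdet : ∀ c : GQ, (∀ ζ : Qb, ζ ^ p = 1 → c ζ = ζ⁻¹) →
      LinearMap.det (ρ.residual.ρ c) = -1 := by
    intro c hc
    obtain ⟨t, d, -, hcyc, -, hd⟩ := exists_rel ρ W hΔ hp hp2 S hpS hS hchar c
    rw [Hres_det_residual ρ c d hd]
    exact Hres_cast_eq_neg_one hp _ hpk c d hc hcyc
  refine ⟨?_, ?_⟩
  · -- absolutely irreducible
    have hpk' : (p : AlgebraicClosure (ResidueField T)) = 0 := by
      have := congrArg (algebraMap (ResidueField T) (AlgebraicClosure (ResidueField T))) hpk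
      rwa [map_natCast, map_zero] at this
    have : CharP (AlgebraicClosure (ResidueField T)) p := (CharP.charP_iff_prime_eq_zero hp).2 hpk'
    let _ : Algebra (ZMod p) (AlgebraicClosure (ResidueField T)) := ZMod.algebra _ p
    have : Finite (Tor W p) := finite_tor W hΔ p hp.pos
    have : Module.Finite (ZMod p) (Tor W p) := Module.Finite.of_finite
    have hE := Hres_finrank_tor W hΔ p
    have hV := (ρ.residual.baseChange (AlgebraicClosure (ResidueField T))).finrank_eq
    have hirr' : ∀ L : Submodule (ZMod p) (Tor W p),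
        (∀ g : GQ, ∀ x ∈ L, Point.galoisRepModuleEnd (K := Qb) ℚ (EQ W) p g x ∈ L) →
          L = ⊥ ∨ L = ⊤ := fun L hL => hirr.2 L hL
    have hcompat : Compat (Point.galoisRepModuleEnd (K := Qb) ℚ (EQ W) p)
        (ρ.residual.baseChange (AlgebraicClosure (ResidueField T))).ρ := by
      intro g
      obtain ⟨t, d, hq, -, ht, hd⟩ := exists_rel ρ W hΔ hp hp2 S hpS hS hchar g
      refine ⟨(t : ZMod p), (d : ZMod p), Hres_rel W p g t d hq, ?_⟩
      show LinearMap.charpoly ((ρ.residual.ρ g).baseChange (AlgebraicClosure (ResidueField T))) = _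
      rw [LinearMap.charpoly_baseChange, Hres_charpoly_residual ρ g t d ht hd]
      simp only [Polynomial.map_add, Polynomial.map_sub, Polynomial.map_mul, Polynomial.map_pow,
        Polynomial.map_X, Polynomial.map_intCast, map_intCast]
    have h2 : (2 : ZMod p) ≠ 0 := by
      intro h
      have h3 : ((2 : ℕ) : ZMod p) = 0 := by exact_mod_cast h
      rw [ZMod.natCast_eq_zero_iff] at h3
      exact hp2 ((Nat.prime_dvd_prime_iff_eq hp Nat.prime_two).1 h3)
    have hdet' : LinearMap.det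
        ((ρ.residual.baseChange (AlgebraicClosure (ResidueField T))).ρ complexConjugation) = -1 := by
      show LinearMap.det ((ρ.residual.ρ complexConjugation).baseChange
        (AlgebraicClosure (ResidueField T))) = -1
      rw [LinearMap.det_baseChange, hdet complexConjugation (fun ζ hζ =>
        ES.D.complexConjugation_rootOfUnity ζ p hp.ne_zero hζ), map_neg, map_one]
    intro L hL
    exact irreducible_of_charpoly_eq h2 hE hV _ _ hirr'
      (charpoly_eq_of_compat hE hV _ _ hirr' hcompat) complexConjugation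
      complexConjugation_mul_self hdet' L hL
  · -- odd
    intro c hc hc1
    apply hdet
    intro ζ hζ
    refine involution_apply_root c.toRingEquiv (fun x => ?_) ?_ (hp.odd_of_ne_two hp2) ζ hζ
    · exact congrArg (fun σ : GQ => σ x) hc
    · by_contra hcon
      push Not at hcon
      exact hc1 (AlgEquiv.ext hcon)

end Fermat.Agent.S58
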