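/-
S58: the newform of minimal level with the eigenvalues of `f` outside `N`, and its eigencharacter.
-/
import Mathlib
import Fermat.Prelude.Def_CuspForm_Newforms
import Fermat.Prelude.Def_CuspForm_HeckeAlgebra
import Fermat.Agent.S49.QCoeff
import Fermat.Agent.ES.Coh.Eigen

set_option autoImplicit false

namespace Fermat.Agent.S58

open CongruenceSubgroup ModularFormClass CuspForm

theorem exists_newform {N : ℕ} (hN : N ≠ 0) {f : CuspForm (Gamma0 N) 2}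
    (hf : f.IsNormalizedEigenform) :
    ∃ (M : ℕ) (_ : M ∣ N) (g : CuspForm (Gamma0 M) 2), g.IsNewform ∧
      ∀ ℓ : ℕ, ℓ.Prime → ¬ ℓ ∣ N → qCoeff g ℓ = qCoeff f ℓ := by
  classical
  have hex : ∃ M : ℕ, M ∣ N ∧ ∃ g : CuspForm (Gamma0 M) 2, g.IsNormalizedEigenform ∧
      ∀ ℓ : ℕ, ℓ.Prime → ¬ ℓ ∣ N → qCoeff g ℓ = qCoeff f ℓ :=
    ⟨N, dvd_rfl, f, hf, fun _ _ _ => rfl⟩
  obtain ⟨hMN, g, hg, hgf⟩ := Nat.find_spec hex
  refine ⟨Nat.find hex, hMN, g, ⟨hg, ?_⟩, hgf⟩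
  rintro M' hM' hne ⟨g', hg', hgg'⟩
  have h0 : Nat.find hex ≠ 0 := by
    intro h0
    rw [h0] at hMN
    exact hN (Nat.eq_zero_of_zero_dvd hMN)
  have hlt : M' < Nat.find hex :=
    lt_of_le_of_ne (Nat.le_of_dvd (Nat.pos_of_ne_zero h0) hM') hne
  refine Nat.find_min hex hlt ⟨hM'.trans hMN, g', hg', fun ℓ hℓ hℓN => ?_⟩
  rw [hgg' ℓ hℓ (fun h => hℓN (h.trans hMN)), hgf ℓ hℓ hℓN]

section Chi

variable {M : ℕ} [NeZero M] {g : CuspForm (Gamma0 M) 2}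

theorem hecke_apply_eq_smul (hg : g.IsNormalizedEigenform) (S : Set ℕ)
    (hMS : ∀ q : ℕ, q.Prime → q ∣ M → q ∈ S) (R : Subring ℂ)
    (hR : ∀ ℓ : ℕ, ℓ.Prime → ¬ ℓ ∣ M → ℓ ∉ S → qCoeff g ℓ ∈ R)
    (t : Module.End ℂ (CuspForm (Gamma0 M) 2)) (ht : t ∈ heckeAlgebra M 2 S) :
    ∃ c ∈ R, t g = c • g := by
  induction ht using Algebra.adjoin_induction with
  | mem x hx =>
    rcases hx with ⟨ℓ, hℓ, hℓM, hℓS, rfl⟩ | ⟨q, hqM, hq, hqS, rfl⟩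
    · exact ⟨qCoeff g ℓ, hR ℓ hℓ hℓM hℓS, Fermat.Agent.ES.Coh.heckeTLin_eq_smul hg hℓ hℓM⟩
    · exact absurd (hMS q hq hqM) hqS
  | algebraMap z =>
    refine ⟨(z : ℂ), intCast_mem R z, ?_⟩
    rw [Module.algebraMap_end_apply, Int.cast_smul_eq_zsmul]
  | add x y _ _ hx hy =>
    obtain ⟨c, hc, hx⟩ := hx
    obtain ⟨d, hd, hy⟩ := hy
    exact ⟨c + d, R.add_mem hc hd, by rw [LinearMap.add_apply, hx, hy, add_smul]⟩
  | mul x y _ _ hx hy =>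
    obtain ⟨c, hc, hx⟩ := hx
    obtain ⟨d, hd, hy⟩ := hy
    exact ⟨c * d, R.mul_mem hc hd, by
      rw [Module.End.mul_apply, hy, map_smul, hx, smul_smul, mul_comm]⟩

theorem qCoeff_one_smul (hg : g.IsNormalizedEigenform) (c : ℂ) : qCoeff (⇑(c • g)) 1 = c := by
  rw [Fermat.Agent.S49.qCoeff_smul, hg.qCoeff_one, mul_one]

/-- the eigencharacter of `g` on the Hecke algebra away from `S ⊇ primes(M)`. -/
theorem exists_chi (hg : g.IsNormalizedEigenform) (S : Set ℕ)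
    (hMS : ∀ q : ℕ, q.Prime → q ∣ M → q ∈ S) :
    ∃ chig : heckeAlgebra M 2 S →+* ℂ,
      (∀ (ℓ : ℕ) (hℓ : ℓ.Prime) (hℓM : ¬ ℓ ∣ M) (hℓS : ℓ ∉ S),
        chig (heckeAlgebra.T hℓ hℓM hℓS) = qCoeff g ℓ) ∧
      ∀ R : Subring ℂ, (∀ ℓ : ℕ, ℓ.Prime → ¬ ℓ ∣ M → ℓ ∉ S → qCoeff g ℓ ∈ R) →
        ∀ t, chig t ∈ R := by
  have key : ∀ t : heckeAlgebra M 2 S, (t : Module.End ℂ (CuspForm (Gamma0 M) 2)) g =
      qCoeff (⇑((t : Module.End ℂ (CuspForm (Gamma0 M) 2)) g)) 1 • g := by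
    intro t
    obtain ⟨c, -, hc⟩ := hecke_apply_eq_smul hg S hMS ⊤ (fun _ _ _ _ => Subring.mem_top _) t.1 t.2
    rw [hc, qCoeff_one_smul hg]
  refine ⟨{ toFun := fun t => qCoeff (⇑((t : Module.End ℂ (CuspForm (Gamma0 M) 2)) g)) 1
            map_one' := ?_
            map_mul' := ?_
            map_zero' := ?_
            map_add' := ?_ }, ?_, ?_⟩
  · show qCoeff (⇑((1 : Module.End ℂ (CuspForm (Gamma0 M) 2)) g)) 1 = 1
    rw [Module.End.one_apply, hg.qCoeff_one]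
  · intro x y
    show qCoeff (⇑(((x : Module.End ℂ (CuspForm (Gamma0 M) 2)) * y) g)) 1 = _
    rw [Module.End.mul_apply]
    conv_lhs => rw [key y, map_smul, key x, smul_smul, qCoeff_one_smul hg]
    rw [mul_comm]
  · show qCoeff (⇑((0 : Module.End ℂ (CuspForm (Gamma0 M) 2)) g)) 1 = 0
    rw [LinearMap.zero_apply]
    exact (Fermat.Agent.S49.qCoeffLin M 2 1).map_zero
  · intro x y
    show qCoeff (⇑(((x : Module.End ℂ (CuspForm (Gamma0 M) 2)) + y) g)) 1 = _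
    rw [LinearMap.add_apply, Fermat.Agent.S49.qCoeff_add]
  · intro ℓ hℓ hℓM hℓS
    show qCoeff (⇑(heckeTLin 2 hℓ hℓM g)) 1 = _
    rw [Fermat.Agent.ES.Coh.heckeTLin_eq_smul hg hℓ hℓM, qCoeff_one_smul hg]
  · intro R hR t
    obtain ⟨c, hcR, hc⟩ := hecke_apply_eq_smul hg S hMS R hR t.1 t.2
    show qCoeff (⇑((t : Module.End ℂ (CuspForm (Gamma0 M) 2)) g)) 1 ∈ R
    rw [hc, qCoeff_one_smul hg]
    exact hcR

end Chi

end Fermat.Agent.S58
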