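/-
S58: the main assembly.  `of_S35_S36 : Stmt35 → Stmt36 → (S29) → frozen S58`.
-/
import Mathlib
import Fermat.Agent.S58.Stmts
import Fermat.Agent.S58.Newform
import Fermat.Agent.S58.Test
import Fermat.Agent.S58.Hres
import Fermat.Agent.S58.Stab
import Fermat.Agent.S58.Count
import Fermat.Agent.S58.Good
import Fermat.Agent.S54.Frobenius

set_option autoImplicit false

namespace Fermat.Agent.S58

open WeierstrassCurve WeierstrassCurve.Affine Polynomial IsLocalRing CongruenceSubgroup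
open ModularFormClass CuspForm
open Fermat.Agent.S31 (Qb GQ)

theorem exists_iota {H : Type*} [Ring H] (chig : H →+* ℂ)
    (h : ∀ t, chig t ∈ (Int.castRingHom ℂ).range) (O : Type*) [Ring O] :
    ∃ iota : chig.range →+* O, ∀ (x : chig.range) (z : ℤ), (x : ℂ) = z → iota x = z := by
  have hle : chig.range ≤ (Int.castRingHom ℂ).range := by
    rintro _ ⟨t, rfl⟩
    exact h t
  let e : ℤ ≃+* (Int.castRingHom ℂ).range :=
    RingEquiv.ofBijective (Int.castRingHom ℂ).rangeRestrict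
      ⟨fun a b hab => Int.cast_injective (α := ℂ) (congrArg Subtype.val hab),
        (Int.castRingHom ℂ).rangeRestrict_surjective⟩
  refine ⟨(Int.castRingHom O).comp (e.symm.toRingHom.comp (Subring.inclusion hle)), ?_⟩
  intro x z hx
  have h1 : e.symm (Subring.inclusion hle x) = z := by
    rw [RingEquiv.symm_apply_eq]
    exact Subtype.ext hx
  show ((e.symm (Subring.inclusion hle x) : ℤ) : O) = z
  rw [h1]

section Package

variable (W : WeierstrassCurve ℤ) {M : ℕ} [NeZero M] {g : CuspForm (Gamma0 M) 2}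

theorem rep35 (h35 : Stmt35) (hg : g.IsNewform) (lam : ℕ) [Fact lam.Prime] (S : Finset ℕ)
    (hlamS : lam ∈ S) (hMS : ∀ q : ℕ, q.Prime → q ∣ M → q ∈ S)
    (hgW : ∀ ℓ : ℕ, ℓ.Prime → ℓ ∉ S → qCoeff g ℓ = (W.apOfModel ℓ : ℂ)) :
    ∃ (T : Type) (_ : CommRing T) (_ : IsLocalRing T) (_ : CharZero T),
      (⨅ n : ℕ, maximalIdeal T ^ n = ⊥) ∧ (lam : T) ∈ maximalIdeal T ∧
      ∃ ρ : GaloisRepAdic T,
        (∀ ℓ : ℕ, ℓ.Prime → ℓ ∉ S → ∀ A : ValuationSubring Qb, A.LiesOverPrime ℓ →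
          ∀ φ : GQ, A.IsFrobeniusAt φ ℓ →
            LinearMap.charpoly (ρ.ρ φ) =
              X ^ 2 - C ((W.apOfModel ℓ : ℤ) : T) * X + C ((ℓ : ℕ) : T)) ∧
        (∀ q : ℕ, q.Prime → q ≠ lam → q ∣ M → ¬ q ^ 2 ∣ M →
          ∀ A : ValuationSubring Qb, A.LiesOverPrime q → ∀ σ : GQ, A.IsFrobeniusAt σ q →
            LinearMap.charpoly (ρ.ρ σ) = X ^ 2 - C ((q : T) + 1) * X + C ((q : T)) ∨
            LinearMap.charpoly (ρ.ρ σ) = X ^ 2 + C ((q : T) + 1) * X + C ((q : T))) := by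
  obtain ⟨chig, hchig, hrange⟩ := exists_chi hg.1 (↑S : Set ℕ)
    (fun q hq hqM => by simpa using hMS q hq hqM)
  have hint : ∀ t, chig t ∈ (Int.castRingHom ℂ).range :=
    hrange _ (fun ℓ hℓ _ hℓS => ⟨W.apOfModel ℓ, by
      rw [hgW ℓ hℓ (by simpa using hℓS)]; simp⟩)
  obtain ⟨iota, hiota⟩ := exists_iota chig hint ℤ_[lam]
  have hlamO : (lam : ℤ_[lam]) ∈ maximalIdeal ℤ_[lam] := by
    rw [PadicInt.maximalIdeal_eq_span_p]
    exact Ideal.mem_span_singleton_self _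
  obtain ⟨O'', i1, i2, i3, i4, i5, i6, i7, i8, i9, hinj, ρ, hρ1, hρ2⟩ :=
    h35 hg lam S ℤ_[lam] hlamO chig hchig iota hlamS hMS
  refine ⟨O'', inferInstance, inferInstance, inferInstance,
    Ideal.iInf_pow_eq_bot_of_isLocalRing _ Ideal.IsPrime.ne_top', ?_, ρ, ?_, hρ2⟩
  · have h1 : (lam : O'') = algebraMap ℤ_[lam] O'' (lam : ℤ_[lam]) := by rw [map_natCast]
    rw [h1]
    exact map_nonunit (algebraMap ℤ_[lam] O'') _ hlamO
  · intro ℓ hℓ hℓS A hA φ hφ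
    have hℓM : ¬ ℓ ∣ M := fun h => hℓS (hMS ℓ hℓ h)
    have hℓS' : ℓ ∉ (↑S : Set ℕ) := by simpa using hℓS
    have h1 := hρ1 ℓ hℓ hℓM hℓS' A hA φ hφ
    have h2 : (iota.comp chig.rangeRestrict) (heckeAlgebra.T hℓ hℓM hℓS') =
        ((W.apOfModel ℓ : ℤ) : ℤ_[lam]) :=
      hiota _ _ (by
        show chig (heckeAlgebra.T hℓ hℓM hℓS') = _
        rw [hchig, hgW ℓ hℓ hℓS])
    rw [h2, map_intCast] at h1
    exact h1

theorem rep36 (h36 : Stmt36) (hΔ : W.Δ ≠ 0) (hg : g.IsNewform) (p : ℕ) [Fact p.Prime]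
    (hp2 : p ≠ 2) (hirr : W.ModRepIsIrreducible p) (S : Finset ℕ)
    (hpS : p ∈ S) (hMS : ∀ q : ℕ, q.Prime → q ∣ M → q ∈ S)
    (hS : ∀ ℓ : ℕ, ℓ.Prime → (ℓ : ℤ) ∣ W.Δ → ℓ ∈ S)
    (hgW : ∀ ℓ : ℕ, ℓ.Prime → ℓ ∉ S → qCoeff g ℓ = (W.apOfModel ℓ : ℂ)) :
    ∃ (T : Type) (_ : CommRing T) (_ : IsLocalRing T),
      (⨅ n : ℕ, maximalIdeal T ^ n = ⊥) ∧ (p : T) ∈ maximalIdeal T ∧
      ∃ ρ : GaloisRepAdic T,
        (∀ ℓ : ℕ, ℓ.Prime → ℓ ∉ S → ∀ A : ValuationSubring Qb, A.LiesOverPrime ℓ →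
          ∀ φ : GQ, A.IsFrobeniusAt φ ℓ →
            LinearMap.charpoly (ρ.ρ φ) =
              X ^ 2 - C ((W.apOfModel ℓ : ℤ) : T) * X + C ((ℓ : ℕ) : T)) ∧
        (∀ q : ℕ, q.Prime → q ≠ p → M.factorization q = 2 → ¬ ρ.IsUnipotentOnInertiaAt q) := by
  have hp : p.Prime := Fact.out
  obtain ⟨chig, hchig, hrange⟩ := exists_chi hg.1 (↑S : Set ℕ)
    (fun q hq hqM => by simpa using hMS q hq hqM)
  have hint : ∀ t, chig t ∈ (Int.castRingHom ℂ).range :=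
    hrange _ (fun ℓ hℓ _ hℓS => ⟨W.apOfModel ℓ, by
      rw [hgW ℓ hℓ (by simpa using hℓS)]; simp⟩)
  obtain ⟨iota, hiota⟩ := exists_iota chig hint ℤ_[p]
  have hpO : (p : ℤ_[p]) ∈ maximalIdeal ℤ_[p] := by
    rw [PadicInt.maximalIdeal_eq_span_p]
    exact Ideal.mem_span_singleton_self _
  have hT : ∀ (ℓ : ℕ) (hℓ : ℓ.Prime) (hℓM : ¬ ℓ ∣ M) (hℓS' : ℓ ∉ (↑S : Set ℕ)),
      (iota.comp chig.rangeRestrict) (heckeAlgebra.T hℓ hℓM hℓS') =
        ((W.apOfModel ℓ : ℤ) : ℤ_[p]) := by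
    intro ℓ hℓ hℓM hℓS'
    exact hiota _ _ (by
      show chig (heckeAlgebra.T hℓ hℓM hℓS') = _
      rw [hchig, hgW ℓ hℓ (by simpa using hℓS')])
  obtain ⟨O'', i1, i2, i3, i4, i5, i6, i7, i8, i9, hinj, ρ, hρ1, hρ2⟩ :=
    h36 hg p S ℤ_[p] hpO hp2 chig hchig iota hpS hMS (by
      intro O'' _ _ _ _ _ _ _ _ _ _ ρ hρ
      have hpT : (p : O'') ∈ maximalIdeal O'' := by
        have h1 : (p : O'') = algebraMap ℤ_[p] O'' (p : ℤ_[p]) := by rw [map_natCast]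
        rw [h1]
        exact map_nonunit (algebraMap ℤ_[p] O'') _ hpO
      refine residual_absIrr_and_odd W hΔ hp hp2 hirr S hpS hS hpT ρ ?_
      intro ℓ hℓ hℓS A hA φ hφ
      have hℓM : ¬ ℓ ∣ M := fun h => hℓS (hMS ℓ hℓ h)
      have hℓS' : ℓ ∉ (↑S : Set ℕ) := by simpa using hℓS
      have h1 := hρ ℓ hℓ (fun h => hℓS (h ▸ hpS)) hℓM hℓS' A hA φ hφ
      rw [hT, map_intCast] at h1
      exact h1)
  refine ⟨O'', inferInstance, inferInstance,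
    Ideal.iInf_pow_eq_bot_of_isLocalRing _ Ideal.IsPrime.ne_top', ?_, ρ, ?_, hρ2⟩
  · have h1 : (p : O'') = algebraMap ℤ_[p] O'' (p : ℤ_[p]) := by rw [map_natCast]
    rw [h1]
    exact map_nonunit (algebraMap ℤ_[p] O'') _ hpO
  · intro ℓ hℓ hℓS A hA φ hφ
    have hℓM : ¬ ℓ ∣ M := fun h => hℓS (hMS ℓ hℓ h)
    have hℓS' : ℓ ∉ (↑S : Set ℕ) := by simpa using hℓS
    have h1 := hρ1 ℓ hℓ hℓM hℓS' A hA φ hφ
    rw [hT, map_intCast] at h1
    exact h1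

/-- no prime `q ≠ p` divides the level of the newform exactly twice. -/
theorem factorization_ne_two (h36 : Stmt36) (hΔ : W.Δ ≠ 0) (hss : W.IsSemistableModel)
    (hg : g.IsNewform) (p : ℕ) [Fact p.Prime]
    (hp2 : p ≠ 2) (hirr : W.ModRepIsIrreducible p) (S : Finset ℕ)
    (hpS : p ∈ S) (hMS : ∀ q : ℕ, q.Prime → q ∣ M → q ∈ S)
    (hS : ∀ ℓ : ℕ, ℓ.Prime → (ℓ : ℤ) ∣ W.Δ → ℓ ∈ S)
    (hgW : ∀ ℓ : ℕ, ℓ.Prime → ℓ ∉ S → qCoeff g ℓ = (W.apOfModel ℓ : ℂ))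
    {q : ℕ} (hq : q.Prime) (hqp : q ≠ p) : M.factorization q ≠ 2 := by
  intro h2
  obtain ⟨T, _, _, hsep, hpT, ρ, hchar, hnot⟩ :=
    rep36 W h36 hΔ hg p hp2 hirr S hpS hMS hS hgW
  exact hnot q hq hqp h2
    (isUnipotentOnInertiaAt_of_semistable ρ W hΔ Fact.out hp2 S hpS hS hchar hsep hpT hss hq hqp)

/-- a prime dividing the level of the newform exactly once is a bad prime. -/
theorem bad_of_dvd (h35 : Stmt35) (hΔ : W.Δ ≠ 0) (hg : g.IsNewform) (S : Finset ℕ)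
    (hMS : ∀ q : ℕ, q.Prime → q ∣ M → q ∈ S)
    (hS : ∀ ℓ : ℕ, ℓ.Prime → (ℓ : ℤ) ∣ W.Δ → ℓ ∈ S)
    (hgW : ∀ ℓ : ℕ, ℓ.Prime → ℓ ∉ S → qCoeff g ℓ = (W.apOfModel ℓ : ℂ))
    {q : ℕ} (hq : q.Prime) (hqM : q ∣ M) (hq2 : ¬ q ^ 2 ∣ M) : (q : ℤ) ∣ W.Δ := by
  by_contra hgood
  obtain ⟨lam, hlam, hlam2, hqlam⟩ : ∃ lam : ℕ, lam.Prime ∧ lam ≠ 2 ∧ q ≠ lam := by
    by_cases h3 : q = 3
    · exact ⟨5, by norm_num, by norm_num, by omega⟩
    · exact ⟨3, by norm_num, by norm_num, h3⟩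
  have : Fact lam.Prime := ⟨hlam⟩
  obtain ⟨T, _, _, _, hsep, hlamT, ρ, hchar, hq1⟩ :=
    rep35 W h35 hg lam (insert lam S) (Finset.mem_insert_self _ _)
      (fun r hr hrM => Finset.mem_insert_of_mem (hMS r hr hrM))
      (fun ℓ hℓ hℓS => hgW ℓ hℓ (fun h => hℓS (Finset.mem_insert_of_mem h)))
  obtain ⟨A, hA⟩ := Fermat.Agent.S54.exists_liesOverPrime q hq
  obtain ⟨σ, hσ⟩ := Fermat.Agent.S54.exists_isFrobeniusAt q hq A hA
  have h1 := charpoly_frobenius_of_good ρ W hΔ hlam hlam2 (insert lam S)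
    (Finset.mem_insert_self _ _) (fun r hr hrΔ => Finset.mem_insert_of_mem (hS r hr hrΔ))
    hchar hsep hlamT hq hqlam hgood A hA σ hσ
  obtain ⟨hb1, hb2⟩ := apOfModel_bound W hq
  rcases hq1 q hq hqlam hqM hq2 A hA σ hσ with h2 | h2
  · rw [h1] at h2
    have h3 := congrArg (fun p => p.coeff 1) h2
    have h4 : ((W.apOfModel q : ℤ) : T) = (((q : ℤ) + 1 : ℤ) : T) := by
      have : -((W.apOfModel q : ℤ) : T) = -((q : T) + 1) := by
        simpa [coeff_X, coeff_C] using h3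
      push_cast
      exact neg_injective this
    have h5 := Int.cast_injective h4
    omega
  · rw [h1] at h2
    have h3 := congrArg (fun p => p.coeff 1) h2
    have h4 : ((W.apOfModel q : ℤ) : T) = ((-((q : ℤ) + 1) : ℤ) : T) := by
      have : -((W.apOfModel q : ℤ) : T) = (q : T) + 1 := by
        simpa [coeff_X, coeff_C] using h3
      push_cast
      rw [← this, neg_neg]
    have h5 := Int.cast_injective h4
    omega

end Package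

/-- **S58 from S35, S36 and S29.** -/
theorem of_S35_S36 (h35 : Stmt35) (h36 : Stmt36)
    (h29 : ∀ {N : ℕ} {g : CuspForm (Gamma0 N) 2} (_ : g.IsNormalizedEigenform)
      (p : ℕ) (_ : p.Prime) (k : Type) [Field k] [CharP k p]
      (φ : integralClosure ℤ ℂ →+* k), ∃ ρ : ResidualGaloisRep k, ρ.IsAttachedTo g φ)
    (W : WeierstrassCurve ℤ) (hss : W.IsSemistableModel) (N : ℕ)
    (p : ℕ) [Fact p.Prime] (hp2 : p ≠ 2) (hirr : W.ModRepIsIrreducible p)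
    (hp2N : ¬ p ^ 2 ∣ N)
    (hN : W.IsModularModelOfLevel N) (hbad : ∀ ℓ : ℕ, ℓ.Prime → (ℓ : ℤ) ∣ W.Δ → ℓ ∣ N)
    (hN3 : ∀ q : ℕ, q.Prime → ¬ q ^ 3 ∣ N) :
    W.IsModularModelOfLevel W.conductorLevel := by
  have hN0 : N ≠ 0 := by
    rintro rfl
    exact hN3 2 Nat.prime_two (dvd_zero _)
  have hΔ : W.Δ ≠ 0 := by
    intro h
    obtain ⟨ℓ, hℓN, hℓ⟩ := Nat.exists_infinite_primes (N + 1)
    have := Nat.le_of_dvd (Nat.pos_of_ne_zero hN0) (hbad ℓ hℓ (h ▸ dvd_zero _))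
    omega
  obtain ⟨f, hf, hfW⟩ := hN
  obtain ⟨M, hMN, g, hg, hgf⟩ := exists_newform hN0 hf
  have hM0 : M ≠ 0 := ne_zero_of_dvd_ne_zero hN0 hMN
  have : NeZero M := ⟨hM0⟩
  set S : Finset ℕ := insert p N.primeFactors with hSdef
  have hpS : p ∈ S := Finset.mem_insert_self _ _
  have hNS : ∀ q : ℕ, q.Prime → q ∣ N → q ∈ S := fun q hq hqN =>
    Finset.mem_insert_of_mem (Nat.mem_primeFactors.mpr ⟨hq, hqN, hN0⟩)
  have hMS : ∀ q : ℕ, q.Prime → q ∣ M → q ∈ S := fun q hq hqM => hNS q hq (hqM.trans hMN)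
  have hS : ∀ ℓ : ℕ, ℓ.Prime → (ℓ : ℤ) ∣ W.Δ → ℓ ∈ S := fun ℓ hℓ h => hNS ℓ hℓ (hbad ℓ hℓ h)
  have hgW : ∀ ℓ : ℕ, ℓ.Prime → ℓ ∉ S → qCoeff g ℓ = (W.apOfModel ℓ : ℂ) := by
    intro ℓ hℓ hℓS
    have hℓN : ¬ ℓ ∣ N := fun h => hℓS (hNS ℓ hℓ h)
    rw [hgf ℓ hℓ hℓN]
    exact hfW ℓ hℓ (fun h => hℓS (hS ℓ hℓ h)) hℓN
  -- `M` is squarefree
  have hsq : ∀ q : ℕ, q.Prime → ¬ q ^ 2 ∣ M := by
    intro q hq hq2
    have hqp : q ≠ p := by
      rintro rfl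
      exact hp2N (hq2.trans hMN)
    refine factorization_ne_two W h36 hΔ hss hg p hp2 hirr S hpS hMS hS hgW hq hqp ?_
    have h1 : 2 ≤ M.factorization q := (hq.pow_dvd_iff_le_factorization hM0).mp hq2
    have h2 : ¬ 3 ≤ M.factorization q := fun h =>
      hN3 q hq (((hq.pow_dvd_iff_le_factorization hM0).mpr h).trans hMN)
    omega
  have hMbad : ∀ q : ℕ, q.Prime → q ∣ M → (q : ℤ) ∣ W.Δ := fun q hq hqM =>
    bad_of_dvd W h35 hΔ hg S hMS hS hgW hq hqM (hsq q hq)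
  have hMsq : Squarefree M := by
    rw [Nat.squarefree_iff_prime_squarefree]
    intro q hq h
    exact hsq q hq (by rwa [sq])
  have hMC : M ∣ W.conductorLevel := by
    rw [← Nat.prod_primeFactors_of_squarefree hMsq]
    refine Finset.prod_primes_dvd _ (fun q hq => (Nat.prime_of_mem_primeFactors hq).prime) ?_
    intro q hq
    have hq' := Nat.prime_of_mem_primeFactors hq
    exact (W.prime_dvd_conductorLevel_iff hΔ hq').mpr
      (hMbad q hq' (Nat.dvd_of_mem_primeFactors hq))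
  obtain ⟨g', hg', hgg'⟩ := exists_eigenform_mul hM0 hg.1 W.conductorLevel hMC
    W.squarefree_conductorLevel
  refine ⟨g', hg', fun ℓ hℓ hgood hℓC => ?_⟩
  rw [hgg' ℓ hℓ hℓC]
  exact qCoeff_eq_of_good W hΔ (fun p hp k _ _ φ => h29 hg.1 p hp k φ) S hS hMS hgW hℓ
    (fun h => hgood (hMbad ℓ hℓ h)) hgood

end Fermat.Agent.S58
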